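/-
Shared basic definitions and lemmas for the proof of S23 (integral structure on S_k(Γ₀(N))).
* `IsNice h F`: `F : ℍ → ℂ` is holomorphic, `h`-periodic and bounded at `i∞`; on such functions
  `qExpansion h` is an injective ring homomorphism.
* `IsMF 𝒢 w F`: `F` is the underlying function of a modular form of weight `w` on `𝒢`.
-/
import Mathlib
import Fermat.Prelude.Def_CuspForm_IntegralStructure
import Fermat.Prelude.Thm_UpperHalfPlane_qExpansion_coeff_nat_mul
import Fermat.Prelude.Thm_UpperHalfPlane_qExpansion_prod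
import Fermat.Prelude.Thm_CongruenceSubgroup_one_mem_strictPeriods_Gamma0

set_option autoImplicit false

namespace Fermat.Agent.S23

open UpperHalfPlane
open scoped MatrixGroups ModularForm Manifold

/-- The image of `Γ₀(N)` in `GL(2, ℝ)`; this is (reducibly) the group appearing in
`CuspForm (CongruenceSubgroup.Gamma0 N) k`. -/
abbrev Gam (N : ℕ) : Subgroup (GL (Fin 2) ℝ) :=
  Subgroup.map (Matrix.SpecialLinearGroup.mapGL ℝ) (CongruenceSubgroup.Gamma0 N)

/-- Holomorphic, `h`-periodic and bounded at `i∞`. -/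
structure IsNice (h : ℝ) (F : ℍ → ℂ) : Prop where
  mdiff : MDiff F
  periodic : Function.Periodic (F ∘ ofComplex) h
  bdd : IsBoundedAtImInfty F

namespace IsNice

variable {h : ℝ} {F G : ℍ → ℂ}

lemma analyticAt (hh : 0 < h) (hF : IsNice h F) : AnalyticAt ℂ (cuspFunction h F) 0 :=
  analyticAt_cuspFunction_zero hh hF.periodic hF.mdiff hF.bdd

lemma const (h : ℝ) (c : ℂ) : IsNice h (fun _ => c) where
  mdiff := mdifferentiable_const
  periodic := fun _ => rfl
  bdd := by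
    have : (fun _ : ℍ => c) = Function.const ℍ c := rfl
    rw [this]
    exact Filter.const_boundedAtFilter _ c

lemma zero (h : ℝ) : IsNice h (0 : ℍ → ℂ) := const h 0

lemma one (h : ℝ) : IsNice h (1 : ℍ → ℂ) := const h 1

lemma add (hF : IsNice h F) (hG : IsNice h G) : IsNice h (F + G) where
  mdiff := hF.mdiff.add hG.mdiff
  periodic := by
    have := hF.periodic.add hG.periodic
    exact this
  bdd := hF.bdd.add hG.bdd

lemma mul (hF : IsNice h F) (hG : IsNice h G) : IsNice h (F * G) where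
  mdiff := hF.mdiff.mul hG.mdiff
  periodic := by
    have := hF.periodic.mul hG.periodic
    exact this
  bdd := hF.bdd.mul hG.bdd

lemma smul (c : ℂ) (hF : IsNice h F) : IsNice h (c • F) := by
  have : c • F = (fun _ => c) * F := by ext; simp
  rw [this]
  exact (const h c).mul hF

lemma neg (hF : IsNice h F) : IsNice h (-F) := by
  have : -F = (-1 : ℂ) • F := by ext; simp
  rw [this]
  exact hF.smul _

lemma sub (hF : IsNice h F) (hG : IsNice h G) : IsNice h (F - G) := by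
  rw [sub_eq_add_neg]
  exact hF.add hG.neg

lemma pow (hF : IsNice h F) (n : ℕ) : IsNice h (F ^ n) := by
  induction n with
  | zero => simpa using one h
  | succ n ih => rw [pow_succ]; exact ih.mul hF

lemma sum {ι : Type*} (s : Finset ι) {F : ι → ℍ → ℂ} (hF : ∀ i ∈ s, IsNice h (F i)) :
    IsNice h (∑ i ∈ s, F i) := by
  classical
  induction s using Finset.induction_on with
  | empty => simpa using zero h
  | insert a s ha ih =>
    rw [Finset.sum_insert ha]
    exact (hF a (Finset.mem_insert_self a s)).add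
      (ih fun i hi => hF i (Finset.mem_insert_of_mem hi))

lemma prod {ι : Type*} (s : Finset ι) {F : ι → ℍ → ℂ} (hF : ∀ i ∈ s, IsNice h (F i)) :
    IsNice h (∏ i ∈ s, F i) := by
  classical
  induction s using Finset.induction_on with
  | empty => simpa using one h
  | insert a s ha ih =>
    rw [Finset.prod_insert ha]
    exact (hF a (Finset.mem_insert_self a s)).mul
      (ih fun i hi => hF i (Finset.mem_insert_of_mem hi))

/-- A nice function of period `h` is nice of period `M * h`. -/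
lemma nat_mul (hF : IsNice h F) (M : ℕ) : IsNice (M * h) F where
  mdiff := hF.mdiff
  periodic := by
    have := hF.periodic.nat_mul M
    simpa using this
  bdd := hF.bdd

end IsNice

section qExpansion

variable {h : ℝ} {F G : ℍ → ℂ}

lemma qExpansion_add (hh : 0 < h) (hF : IsNice h F) (hG : IsNice h G) :
    qExpansion h (F + G) = qExpansion h F + qExpansion h G :=
  UpperHalfPlane.qExpansion_add (hF.analyticAt hh) (hG.analyticAt hh)

lemma qExpansion_mul (hh : 0 < h) (hF : IsNice h F) (hG : IsNice h G) :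
    qExpansion h (F * G) = qExpansion h F * qExpansion h G :=
  UpperHalfPlane.qExpansion_mul (hF.analyticAt hh) (hG.analyticAt hh)

lemma qExpansion_smul (hh : 0 < h) (c : ℂ) (hF : IsNice h F) :
    qExpansion h (c • F) = c • qExpansion h F :=
  UpperHalfPlane.qExpansion_smul (hF.analyticAt hh) c

lemma qExpansion_neg (hh : 0 < h) (hF : IsNice h F) :
    qExpansion h (-F) = -qExpansion h F :=
  UpperHalfPlane.qExpansion_neg (hF.analyticAt hh)

lemma qExpansion_sub (hh : 0 < h) (hF : IsNice h F) (hG : IsNice h G) :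
    qExpansion h (F - G) = qExpansion h F - qExpansion h G :=
  UpperHalfPlane.qExpansion_sub (hF.analyticAt hh) (hG.analyticAt hh)

lemma qExpansion_pow (hh : 0 < h) (hF : IsNice h F) (n : ℕ) :
    qExpansion h (F ^ n) = qExpansion h F ^ n := by
  induction n with
  | zero => simpa using UpperHalfPlane.qExpansion_one h
  | succ n ih => rw [pow_succ, qExpansion_mul hh (hF.pow n) hF, ih, pow_succ]

lemma qExpansion_sum (hh : 0 < h) {ι : Type*} (s : Finset ι) {F : ι → ℍ → ℂ}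
    (hF : ∀ i ∈ s, IsNice h (F i)) :
    qExpansion h (∑ i ∈ s, F i) = ∑ i ∈ s, qExpansion h (F i) := by
  classical
  induction s using Finset.induction_on with
  | empty => simpa using UpperHalfPlane.qExpansion_zero h
  | insert a s ha ih =>
    rw [Finset.sum_insert ha, Finset.sum_insert ha,
      qExpansion_add hh (hF a (Finset.mem_insert_self a s))
        (IsNice.sum s fun i hi => hF i (Finset.mem_insert_of_mem hi)),
      ih fun i hi => hF i (Finset.mem_insert_of_mem hi)]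

lemma qExpansion_prod (hh : 0 < h) {ι : Type*} (s : Finset ι) {F : ι → ℍ → ℂ}
    (hF : ∀ i ∈ s, IsNice h (F i)) :
    qExpansion h (∏ i ∈ s, F i) = ∏ i ∈ s, qExpansion h (F i) :=
  UpperHalfPlane.qExpansion_prod s fun i hi => (hF i hi).analyticAt hh

lemma qExpansion_eq_zero_iff (hh : 0 < h) (hF : IsNice h F) : qExpansion h F = 0 ↔ F = 0 :=
  UpperHalfPlane.qExpansion_eq_zero_iff hh hF.periodic hF.mdiff hF.bdd

lemma qExpansion_injective (hh : 0 < h) (hF : IsNice h F) (hG : IsNice h G)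
    (hFG : qExpansion h F = qExpansion h G) : F = G := by
  have := (qExpansion_eq_zero_iff hh (hF.sub hG)).mp (by rw [qExpansion_sub hh hF hG, hFG, sub_self])
  exact sub_eq_zero.mp this

/-- Changing the period from `h` to `M * h` expands the `q`-expansion. -/
lemma qExpansion_nat_mul (hh : 0 < h) (hF : IsNice h F) {M : ℕ} (hM : M ≠ 0) :
    qExpansion (M * h) F = PowerSeries.expand M hM (qExpansion h F) := by
  ext n
  rw [UpperHalfPlane.qExpansion_coeff_nat_mul hh hF.periodic hF.mdiff hF.bdd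
    (Nat.pos_of_ne_zero hM) n, PowerSeries.coeff_expand]

end qExpansion


section IsMF

/-- `F` is (the function underlying) a modular form of weight `w` on `𝒢`. -/
def IsMF (𝒢 : Subgroup (GL (Fin 2) ℝ)) (w : ℤ) (F : ℍ → ℂ) : Prop :=
  ∃ G : ModularForm 𝒢 w, ⇑G = F

variable {𝒢 ℋ : Subgroup (GL (Fin 2) ℝ)} {w w' : ℤ} {F G : ℍ → ℂ}

lemma IsMF.coe (f : ModularForm 𝒢 w) : IsMF 𝒢 w ⇑f := ⟨f, rfl⟩

lemma IsMF.of_class {F' : Type*} [FunLike F' ℍ ℂ] [ModularFormClass F' 𝒢 w] (f : F') :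
    IsMF 𝒢 w ⇑f := ⟨ModularFormClass.modularForm f, rfl⟩

lemma IsMF.coe_cuspForm (f : CuspForm 𝒢 w) : IsMF 𝒢 w ⇑f := IsMF.of_class f

lemma IsMF.congr_weight (hF : IsMF 𝒢 w F) (hw : w = w') : IsMF 𝒢 w' F := hw ▸ hF

lemma IsMF.zero : IsMF 𝒢 w (0 : ℍ → ℂ) := ⟨0, rfl⟩

lemma IsMF.add (hF : IsMF 𝒢 w F) (hG : IsMF 𝒢 w G) : IsMF 𝒢 w (F + G) := by
  obtain ⟨f, rfl⟩ := hF
  obtain ⟨g, rfl⟩ := hG
  exact ⟨f + g, rfl⟩

lemma IsMF.neg (hF : IsMF 𝒢 w F) : IsMF 𝒢 w (-F) := by
  obtain ⟨f, rfl⟩ := hF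
  exact ⟨-f, rfl⟩

lemma IsMF.sub (hF : IsMF 𝒢 w F) (hG : IsMF 𝒢 w G) : IsMF 𝒢 w (F - G) := by
  obtain ⟨f, rfl⟩ := hF
  obtain ⟨g, rfl⟩ := hG
  exact ⟨f - g, rfl⟩

lemma IsMF.smul [𝒢.HasDetOne] (c : ℂ) (hF : IsMF 𝒢 w F) : IsMF 𝒢 w (c • F) := by
  obtain ⟨f, rfl⟩ := hF
  exact ⟨c • f, rfl⟩

lemma IsMF.mul [𝒢.HasDetPlusMinusOne] (hF : IsMF 𝒢 w F) (hG : IsMF 𝒢 w' G) :
    IsMF 𝒢 (w + w') (F * G) := by
  obtain ⟨f, rfl⟩ := hF
  obtain ⟨g, rfl⟩ := hG
  exact ⟨f.mul g, rfl⟩

lemma IsMF.one [𝒢.HasDetPlusMinusOne] : IsMF 𝒢 0 (1 : ℍ → ℂ) := ⟨1, rfl⟩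

lemma IsMF.const [𝒢.HasDetOne] (c : ℂ) : IsMF 𝒢 0 (fun _ => c) := ⟨ModularForm.const c, rfl⟩

lemma IsMF.pow [𝒢.HasDetPlusMinusOne] (hF : IsMF 𝒢 w F) (n : ℕ) : IsMF 𝒢 (n * w) (F ^ n) := by
  obtain ⟨f, rfl⟩ := hF
  exact ⟨f.pow n, ModularForm.coe_pow f n⟩

lemma IsMF.sum {ι : Type*} (s : Finset ι) {F : ι → ℍ → ℂ} (hF : ∀ i ∈ s, IsMF 𝒢 w (F i)) :
    IsMF 𝒢 w (∑ i ∈ s, F i) := by
  classical
  induction s using Finset.induction_on with
  | empty => simpa using IsMF.zero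
  | insert a s ha ih =>
    rw [Finset.sum_insert ha]
    exact (hF a (Finset.mem_insert_self a s)).add
      (ih fun i hi => hF i (Finset.mem_insert_of_mem hi))

/-- Restriction of a modular form to a smaller group. -/
lemma IsMF.mono (hle : 𝒢 ≤ ℋ) (hF : IsMF ℋ w F) : IsMF 𝒢 w F := by
  obtain ⟨f, rfl⟩ := hF
  exact ⟨{ toFun := f
           slash_action_eq' := fun γ hγ => f.slash_action_eq' γ (hle hγ)
           holo' := f.holo'
           bdd_at_cusps' := fun hc => f.bdd_at_cusps' (hc.mono hle) }, rfl⟩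

lemma Gam_le_SL (N : ℕ) : Gam N ≤ 𝒮ℒ := by
  rintro _ ⟨γ, -, rfl⟩
  exact ⟨γ, rfl⟩

lemma IsMF.of_levelOne {N : ℕ} (hF : IsMF 𝒮ℒ w F) : IsMF (Gam N) w F := hF.mono (Gam_le_SL N)

lemma IsMF.mdiff (hF : IsMF 𝒢 w F) : MDiff F := by
  obtain ⟨f, rfl⟩ := hF
  exact f.holo'

lemma IsMF.slash_eq (hF : IsMF 𝒢 w F) {γ : GL (Fin 2) ℝ} (hγ : γ ∈ 𝒢) : F ∣[w] γ = F := by
  obtain ⟨f, rfl⟩ := hF
  exact f.slash_action_eq' γ hγ

lemma IsMF.isNice (hF : IsMF 𝒢 w F) {h : ℝ} (hh : 0 < h) (hper : h ∈ 𝒢.strictPeriods) :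
    IsNice h F := by
  obtain ⟨f, rfl⟩ := hF
  have : Fact (IsCusp OnePoint.infty 𝒢) := ⟨𝒢.isCusp_of_mem_strictPeriods hh hper⟩
  exact ⟨f.holo', SlashInvariantFormClass.periodic_comp_ofComplex f hper,
    ModularFormClass.bdd_at_infty f⟩

lemma IsMF.isNice_one_of_levelOne (hF : IsMF 𝒮ℒ w F) : IsNice 1 F :=
  hF.isNice one_pos one_mem_strictPeriods_SL

lemma IsMF.isNice_one {N : ℕ} (hF : IsMF (Gam N) w F) : IsNice 1 F :=
  hF.isNice one_pos (CongruenceSubgroup.one_mem_strictPeriods_Gamma0 N)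

/-- Constructor for level one: a holomorphic function, invariant under the weight `w` action of
`SL(2, ℤ)` and bounded at `i∞`, is a modular form of level one. -/
lemma IsMF.levelOne_mk (hF : MDiff F) (hinv : ∀ γ : SL(2, ℤ), F ∣[w] γ = F)
    (hbdd : IsBoundedAtImInfty F) : IsMF 𝒮ℒ w F :=
  ⟨{ toFun := F
     slash_action_eq' := by
       rintro _ ⟨γ, rfl⟩
       exact hinv γ
     holo' := hF
     bdd_at_cusps' := fun {c} hc => by
       rw [OnePoint.isBoundedAt_iff_forall_SL2Z hc]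
       intro γ _
       rw [hinv γ]
       exact hbdd }, rfl⟩

end IsMF


section Cosets

/-- Cosets of `𝒢 ⊓ SL(2, ℤ)` in `SL(2, ℤ)` (the index type of the conjugates
`SlashInvariantForm.quotientFunc f q` of a form `f` on `𝒢`). -/
abbrev Q (𝒢 : Subgroup (GL (Fin 2) ℝ)) : Type := ↥𝒮ℒ ⧸ 𝒢.subgroupOf 𝒮ℒ

variable {𝒢 : Subgroup (GL (Fin 2) ℝ)} [𝒢.IsArithmetic] {k : ℤ} {F : Type*} [FunLike F ℍ ℂ]

noncomputable instance instFintypeQ : Fintype (Q 𝒢) := Fintype.ofFinite _

variable (𝒢) in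
/-- The index of `𝒢 ⊓ SL(2, ℤ)` in `SL(2, ℤ)`. -/
noncomputable def idx : ℕ := Fintype.card (Q 𝒢)

/-- `(-1) ^ i` times the `i`-th elementary symmetric polynomial of the conjugates of `f`: the
coefficient of `X ^ (idx 𝒢 - i)` in the characteristic polynomial `∏ q, (X - f_q)`. -/
noncomputable def charCoeff [SlashInvariantFormClass F 𝒢 k] (f : F) (i : ℕ) : ℍ → ℂ :=
  fun τ => (-1) ^ i *
    (Finset.univ.val.map fun q : Q 𝒢 => SlashInvariantForm.quotientFunc f q τ).esymm i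

open Classical in
/-- The "different" of `h`: the product of `h - h_q` over the nontrivial cosets `q`. -/
noncomputable def diffFun [SlashInvariantFormClass F 𝒢 k] (h : F) : ℍ → ℂ :=
  fun τ => ∏ q ∈ Finset.univ.erase (QuotientGroup.mk 1 : Q 𝒢),
    (h τ - SlashInvariantForm.quotientFunc h q τ)

lemma diffFun_apply [DecidableEq (Q 𝒢)] [SlashInvariantFormClass F 𝒢 k] (h : F) (τ : ℍ) :
    diffFun h τ = ∏ q ∈ Finset.univ.erase (QuotientGroup.mk 1 : Q 𝒢),
      (h τ - SlashInvariantForm.quotientFunc h q τ) := by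
  unfold diffFun
  congr!

end Cosets

section Delta

/-- The function `τ ↦ Δ((a τ + b) / d)` on the upper half plane. -/
noncomputable def DeltaAff (a d b : ℕ) : ℍ → ℂ :=
  fun τ => ModularForm.discriminant (ofComplex (((a : ℂ) * (τ : ℂ) + (b : ℂ)) / (d : ℂ)))

/-- The function `τ ↦ Δ(N τ)` on the upper half plane. -/
noncomputable def DeltaN (N : ℕ) : ℍ → ℂ :=
  fun τ => ModularForm.discriminant (ofComplex ((N : ℂ) * (τ : ℂ)))

end Delta

end Fermat.Agent.S23
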