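/-
q-expansions (with respect to the period `N = a d`) of the functions `τ ↦ Δ((a τ + b) / d)`.
-/
import Fermat.Agent.S23.Basic

set_option autoImplicit false

namespace Fermat.Agent.S23.DeltaAff

open UpperHalfPlane Function Filter
open scoped MatrixGroups ModularForm Manifold Real

/-- `Δ` is holomorphic, `1`-periodic and bounded at `i∞`. -/
theorem isNice_discriminant : IsNice 1 ModularForm.discriminant :=
  (IsMF.coe_cuspForm CuspForm.discriminant).isNice_one_of_levelOne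

/-- Imaginary part of the affine image `(a z + b) / d`. -/
theorem im_aff (a d b : ℕ) (z : ℂ) :
    (((a : ℂ) * z + (b : ℂ)) / (d : ℂ)).im = (a : ℝ) * z.im / (d : ℝ) := by
  simp [Complex.div_natCast_im]

theorem im_aff_pos {a d : ℕ} (b : ℕ) (ha : 0 < a) (hd : 0 < d) {z : ℂ} (hz : 0 < z.im) :
    0 < (((a : ℂ) * z + (b : ℂ)) / (d : ℂ)).im := by
  rw [im_aff]
  positivity

/-- `DeltaAff` through `Δ ∘ ofComplex` on the upper half plane. -/
theorem DeltaAff_comp_ofComplex (a d b : ℕ) {z : ℂ} (hz : 0 < z.im) :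
    (DeltaAff a d b ∘ ofComplex) z
      = (ModularForm.discriminant ∘ ofComplex) (((a : ℂ) * z + (b : ℂ)) / (d : ℂ)) := by
  simp [DeltaAff, ofComplex_apply_of_im_pos hz]

theorem periodic_DeltaAff (a d b : ℕ) (hd : 0 < d) :
    Function.Periodic (DeltaAff a d b ∘ ofComplex) (((a * d : ℕ) : ℝ) : ℂ) := by
  intro z
  by_cases hz : 0 < z.im
  · have hz' : 0 < (z + (((a * d : ℕ) : ℝ) : ℂ)).im := by simpa using hz
    rw [DeltaAff_comp_ofComplex a d b hz', DeltaAff_comp_ofComplex a d b hz]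
    have hper := isNice_discriminant.periodic.nat_mul (a ^ 2)
    have harg : ((a : ℂ) * (z + (((a * d : ℕ) : ℝ) : ℂ)) + (b : ℂ)) / (d : ℂ)
        = ((a : ℂ) * z + (b : ℂ)) / (d : ℂ) + ((a ^ 2 : ℕ) : ℂ) * ((1 : ℝ) : ℂ) := by
      have hd' : (d : ℂ) ≠ 0 := by exact_mod_cast hd.ne'
      push_cast
      field_simp
      ring
    rw [harg]
    exact hper _
  · have hz0 : z.im ≤ 0 := not_lt.mp hz
    have hz1 : (z + (((a * d : ℕ) : ℝ) : ℂ)).im ≤ 0 := by simpa using hz0
    simp only [comp_apply, ofComplex_apply_eq_of_im_nonpos hz1 hz0]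

theorem mdiff_DeltaAff (a d b : ℕ) (ha : 0 < a) (hd : 0 < d) : MDiff (DeltaAff a d b) := by
  rw [mdifferentiable_iff]
  have h1 : DifferentiableOn ℂ (ModularForm.discriminant ∘ ofComplex) {z : ℂ | 0 < z.im} :=
    mdifferentiable_iff.mp isNice_discriminant.mdiff
  have h2 : DifferentiableOn ℂ (fun z : ℂ => ((a : ℂ) * z + (b : ℂ)) / (d : ℂ))
      {z : ℂ | 0 < z.im} := by
    fun_prop
  have h3 : Set.MapsTo (fun z : ℂ => ((a : ℂ) * z + (b : ℂ)) / (d : ℂ))
      {z : ℂ | 0 < z.im} {z : ℂ | 0 < z.im} := fun z hz => im_aff_pos b ha hd hz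
  exact (h1.comp h2 h3).congr fun z hz => DeltaAff_comp_ofComplex a d b hz

/-- The key identity for the `q`-parameters. -/
theorem qParam_aff (a d b : ℕ) (ha : 0 < a) (hd : 0 < d) (z : ℂ) :
    Function.Periodic.qParam 1 (((a : ℂ) * z + (b : ℂ)) / (d : ℂ))
      = Complex.exp (2 * π * Complex.I / ((a * d : ℕ) : ℂ)) ^ (a * b)
        * Function.Periodic.qParam ((a * d : ℕ) : ℝ) z ^ (a ^ 2) := by
  have ha' : (a : ℂ) ≠ 0 := by exact_mod_cast ha.ne'
  have hd' : (d : ℂ) ≠ 0 := by exact_mod_cast hd.ne'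
  simp only [Function.Periodic.qParam]
  rw [← Complex.exp_nat_mul, ← Complex.exp_nat_mul, ← Complex.exp_add]
  congr 1
  push_cast
  field_simp
  ring

/-- The coefficients of the expansion of `DeltaAff a d b` in `q_N`, `N = a d`. -/
noncomputable def coef (a d b : ℕ) (n : ℕ) : ℂ :=
  if a ^ 2 ∣ n then
    (qExpansion 1 ModularForm.discriminant).coeff (n / a ^ 2) *
      Complex.exp (2 * π * Complex.I / ((a * d : ℕ) : ℂ)) ^ (a * b * (n / a ^ 2))
  else 0

theorem hasSum_DeltaAff (a d b : ℕ) (ha : 0 < a) (hd : 0 < d) (τ : ℍ) :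
    HasSum (fun n : ℕ => coef a d b n • Function.Periodic.qParam ((a * d : ℕ) : ℝ) τ ^ n)
      (DeltaAff a d b τ) := by
  set w : ℍ := ofComplex (((a : ℂ) * (τ : ℂ) + (b : ℂ)) / (d : ℂ)) with hw
  have hwcoe : (w : ℂ) = ((a : ℂ) * (τ : ℂ) + (b : ℂ)) / (d : ℂ) := by
    rw [hw, ofComplex_apply_of_im_pos (im_aff_pos b ha hd τ.im_pos)]
  have h1 := UpperHalfPlane.hasSum_qExpansion one_pos isNice_discriminant.periodic
    isNice_discriminant.mdiff isNice_discriminant.bdd w
  rw [hwcoe, qParam_aff a d b ha hd] at h1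
  have ha2 : a ^ 2 ≠ 0 := pow_ne_zero 2 ha.ne'
  have hinj : Function.Injective (fun m : ℕ => a ^ 2 * m) := mul_right_injective₀ ha2
  refine (hinj.hasSum_iff ?_).mp ?_
  · intro n hn
    have : ¬ a ^ 2 ∣ n := by
      rintro ⟨m, rfl⟩
      exact hn ⟨m, rfl⟩
    simp [coef, this]
  · have h2 : DeltaAff a d b τ = ModularForm.discriminant w := rfl
    rw [h2]
    convert h1 using 1
    funext m
    simp only [comp_apply, coef, if_pos (dvd_mul_right (a ^ 2) m),
      Nat.mul_div_cancel_left m (Nat.pos_of_ne_zero ha2), smul_eq_mul]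
    rw [mul_pow, ← pow_mul, ← pow_mul]
    ring

end Fermat.Agent.S23.DeltaAff

namespace Fermat.Agent.S23

open UpperHalfPlane
open scoped MatrixGroups ModularForm Manifold Real

/-- `τ ↦ Δ((a τ + b) / d)` is holomorphic, bounded at `i∞` and has period `a d`. -/
theorem DeltaAff_isNice (a d b : ℕ) (ha : 0 < a) (hd : 0 < d) :
    IsNice ((a * d : ℕ) : ℝ) (DeltaAff a d b) := by
  exact ⟨DeltaAff.mdiff_DeltaAff a d b ha hd, DeltaAff.periodic_DeltaAff a d b hd,
    isBoundedAtImInfty_of_hasSum_qExpansion (Nat.cast_pos.mpr (Nat.mul_pos ha hd))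
      (DeltaAff.hasSum_DeltaAff a d b ha hd)⟩

/-- The expansion of `τ ↦ Δ((a τ + b) / d)` in `q_N = exp(2 π i τ / N)`, `N = a d`: the coefficient of
`q_N ^ (a² m)` is `τ(m) ζ_N ^ (a b m)`, where `ζ_N = exp(2 π i / N)`; all other coefficients vanish. -/
theorem qExpansion_DeltaAff (a d b : ℕ) (ha : 0 < a) (hd : 0 < d) :
    qExpansion ((a * d : ℕ) : ℝ) (DeltaAff a d b) =
      PowerSeries.mk (fun n => if a ^ 2 ∣ n then
        (qExpansion 1 ModularForm.discriminant).coeff (n / a ^ 2) *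
          Complex.exp (2 * π * Complex.I / ((a * d : ℕ) : ℂ)) ^ (a * b * (n / a ^ 2))
        else 0) := by
  have hN : (0 : ℝ) < ((a * d : ℕ) : ℝ) := Nat.cast_pos.mpr (Nat.mul_pos ha hd)
  ext n
  rw [PowerSeries.coeff_mk]
  have h := UpperHalfPlane.qExpansion_coeff_unique
    (ContinuousMap.mk (DeltaAff a d b) (DeltaAff.mdiff_DeltaAff a d b ha hd).continuous) hN
    ((DeltaAff_isNice a d b ha hd).analyticAt hN) (DeltaAff.hasSum_DeltaAff a d b ha hd) n
  exact h.symm

end Fermat.Agent.S23
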