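/-
The q-expansion of the different of `Δ(N τ)` is, up to a power of `X`, invertible with inverse a
finite complex combination of power series with integer coefficients.
-/
import Fermat.Agent.S23.Basic

set_option autoImplicit false

namespace Fermat.Agent.S23.DeltaExp

open UpperHalfPlane
open scoped MatrixGroups ModularForm Manifold Real

/-- A power series whose first nonzero coefficient is a unit divides a power of `X`. -/
lemma exists_mul_eq_X_pow {R : Type*} [CommRing R] (f : PowerSeries R) (k : ℕ)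
    (hlow : ∀ i < k, PowerSeries.coeff i f = 0) (hk : IsUnit (PowerSeries.coeff k f)) :
    ∃ v : PowerSeries R, f * v = PowerSeries.X ^ k := by
  set w : PowerSeries R := PowerSeries.mk fun n => PowerSeries.coeff (n + k) f with hw
  have hf : f = PowerSeries.X ^ k * w := by
    ext n
    rw [PowerSeries.coeff_X_pow_mul']
    split_ifs with h
    · simp [hw, Nat.sub_add_cancel h]
    · exact hlow n (not_le.mp h)
  have hu : IsUnit w := by
    rw [PowerSeries.isUnit_iff_constantCoeff]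
    simpa [hw] using hk
  obtain ⟨u, hu⟩ := hu
  refine ⟨↑u⁻¹, ?_⟩
  rw [hf, ← hu, mul_assoc, Units.mul_inv, mul_one]

/-- The polynomial `X ^ N - 1` over `ℤ`. -/
noncomputable def cyc (N : ℕ) : Polynomial ℤ := Polynomial.X ^ N - 1

lemma cyc_monic (N : ℕ) [NeZero N] : (cyc N).Monic := by
  simpa [cyc] using Polynomial.monic_X_pow_sub_C (1 : ℤ) (NeZero.ne N)

/-- The ring `ℤ[X] / (X ^ N - 1)`. -/
abbrev B (N : ℕ) : Type := AdjoinRoot (cyc N)

/-- The root of unity `exp (2 π i / N)`. -/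
noncomputable def zeta (N : ℕ) : ℂ := Complex.exp (2 * π * Complex.I / (N : ℂ))

lemma zeta_pow (N : ℕ) [NeZero N] : zeta N ^ N = 1 := by
  have hN : (N : ℂ) ≠ 0 := Nat.cast_ne_zero.mpr (NeZero.ne N)
  rw [zeta, ← Complex.exp_nat_mul, mul_div_cancel₀ _ hN, Complex.exp_two_pi_mul_I]

/-- Evaluation `ℤ[X] / (X ^ N - 1) → ℂ` at `exp (2 π i / N)`. -/
noncomputable def ev (N : ℕ) [NeZero N] : B N →+* ℂ :=
  AdjoinRoot.lift (Int.castRingHom ℂ) (zeta N) (by simp [cyc, zeta_pow])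

lemma ev_root (N : ℕ) [NeZero N] : ev N (AdjoinRoot.root (cyc N)) = zeta N := by
  simp [ev]

lemma root_pow (N : ℕ) : (AdjoinRoot.root (cyc N)) ^ N = 1 := by
  have h : Polynomial.eval₂ (AdjoinRoot.of (cyc N)) (AdjoinRoot.root (cyc N))
      (Polynomial.X ^ N - 1) = 0 := AdjoinRoot.eval₂_root (cyc N)
  rw [Polynomial.eval₂_sub, Polynomial.eval₂_pow, Polynomial.eval₂_X, Polynomial.eval₂_one,
    sub_eq_zero] at h
  exact h

lemma isUnit_root (N : ℕ) [NeZero N] : IsUnit (AdjoinRoot.root (cyc N)) :=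
  IsUnit.of_pow_eq_one (root_pow N) (NeZero.ne N)

/-- Every power series over `ℤ[X] / (X ^ N - 1)` maps to a finite complex combination of
integral power series. -/
lemma exists_decomp (N : ℕ) [NeZero N] (v : PowerSeries (B N)) :
    ∃ (L : Type) (_ : Fintype L) (ω : L → ℂ) (e : L → PowerSeries ℤ),
      v.map (ev N) = ∑ l, ω l • (e l).map (Int.castRingHom ℂ) := by
  let pb := AdjoinRoot.powerBasis' (cyc_monic N)
  refine ⟨Fin pb.dim, inferInstance, fun l => ev N (pb.basis l),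
    fun l => PowerSeries.mk fun n => pb.basis.repr (PowerSeries.coeff n v) l, ?_⟩
  ext n
  have h := congrArg (ev N) (pb.basis.sum_repr (PowerSeries.coeff n v))
  simp only [PowerSeries.coeff_map, map_sum, PowerSeries.coeff_smul, PowerSeries.coeff_mk]
  rw [← h]
  simp [mul_comm]

/-- The lift to `ℤ[X] / (X ^ N - 1)` of the `q_N`-expansion of `Δ((a τ + b) / d)`. -/
noncomputable def liftAff (N : ℕ) (sΔ : PowerSeries ℤ) (a b : ℕ) : PowerSeries (B N) :=
  PowerSeries.mk fun n => if a ^ 2 ∣ n then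
    ((PowerSeries.coeff (n / a ^ 2) sΔ : ℤ) : B N) *
      (AdjoinRoot.root (cyc N)) ^ (a * b * (n / a ^ 2)) else 0

lemma map_liftAff (N : ℕ) [NeZero N] (sΔ : PowerSeries ℤ)
    (hsΔ : sΔ.map (Int.castRingHom ℂ) = qExpansion 1 ModularForm.discriminant) (a b : ℕ) :
    (liftAff N sΔ a b).map (ev N) =
      PowerSeries.mk (fun n => if a ^ 2 ∣ n then
          (qExpansion 1 ModularForm.discriminant).coeff (n / a ^ 2) *
            Complex.exp (2 * π * Complex.I / (N : ℂ)) ^ (a * b * (n / a ^ 2))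
          else 0) := by
  ext n
  rw [← hsΔ]
  simp only [liftAff, PowerSeries.coeff_map, PowerSeries.coeff_mk]
  split_ifs with h
  · simp [ev_root, zeta]
  · simp

lemma coeff_liftAff_of_lt (N : ℕ) (sΔ : PowerSeries ℤ) (h0 : PowerSeries.coeff 0 sΔ = 0)
    (a b : ℕ) {i : ℕ} (hi : i < a ^ 2) : PowerSeries.coeff i (liftAff N sΔ a b) = 0 := by
  simp only [liftAff, PowerSeries.coeff_mk]
  split_ifs with h
  · have hi0 : i = 0 := Nat.eq_zero_of_dvd_of_lt h hi
    subst hi0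
    simp [h0]
  · rfl

lemma coeff_liftAff_self (N : ℕ) (sΔ : PowerSeries ℤ) (h1 : PowerSeries.coeff 1 sΔ = 1)
    (a b : ℕ) (ha : 0 < a) :
    PowerSeries.coeff (a ^ 2) (liftAff N sΔ a b) = (AdjoinRoot.root (cyc N)) ^ (a * b) := by
  have ha2 : 0 < a ^ 2 := by positivity
  simp [liftAff, Nat.div_self ha2, h1]

/-- The conjugate of `Δ(N τ)` attached to a nontrivial coset. -/
lemma quotientFunc_eq (N : ℕ) [NeZero N] (hN : ModularForm (Gam N) 12)
    (hcoe : ⇑hN = DeltaN N)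
    (hslash : ∀ γ : SL(2, ℤ), γ ∉ CongruenceSubgroup.Gamma0 N →
      ∃ a d b : ℕ, a * d = N ∧ a < N ∧ 0 < a ∧
        DeltaN N ∣[(12 : ℤ)] γ = ((d : ℂ) ^ (-12 : ℤ)) • DeltaAff a d b)
    (q : Q (Gam N)) (hq : q ≠ (QuotientGroup.mk 1 : Q (Gam N))) :
    ∃ a d b : ℕ, a * d = N ∧ a < N ∧ 0 < a ∧
      SlashInvariantForm.quotientFunc hN q = ((d : ℂ) ^ (-12 : ℤ)) • DeltaAff a d b := by
  induction q using QuotientGroup.induction_on with
  | H g =>
    obtain ⟨g, γ, rfl⟩ := g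
    have hγ : γ⁻¹ ∉ CongruenceSubgroup.Gamma0 N := by
      intro hmem
      apply hq
      rw [QuotientGroup.eq, Subgroup.mem_subgroupOf]
      exact ⟨γ⁻¹, hmem, by simp⟩
    obtain ⟨a, d, b, had, haN, ha0, hslash'⟩ := hslash γ⁻¹ hγ
    refine ⟨a, d, b, had, haN, ha0, ?_⟩
    rw [← hslash', ← hcoe]
    change (⇑hN) ∣[(12 : ℤ)] (Matrix.SpecialLinearGroup.mapGL ℝ γ)⁻¹ =
      (⇑hN) ∣[(12 : ℤ)] (Matrix.SpecialLinearGroup.mapGL ℝ γ⁻¹)
    rw [map_inv]

/-- One factor of the different: niceness and a lift of its `q_N`-expansion which divides a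
power of `X`. -/
lemma factor (N : ℕ) [NeZero N] (sΔ : PowerSeries ℤ)
    (hsΔ : sΔ.map (Int.castRingHom ℂ) = qExpansion 1 ModularForm.discriminant)
    (h0 : PowerSeries.coeff 0 sΔ = 0) (h1 : PowerSeries.coeff 1 sΔ = 1)
    (hexp : ∀ a d b : ℕ, a * d = N → 0 < a →
      IsNice (N : ℝ) (DeltaAff a d b) ∧
      qExpansion (N : ℝ) (DeltaAff a d b) =
        PowerSeries.mk (fun n => if a ^ 2 ∣ n then
          (qExpansion 1 ModularForm.discriminant).coeff (n / a ^ 2) *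
            Complex.exp (2 * π * Complex.I / (N : ℂ)) ^ (a * b * (n / a ^ 2))
          else 0))
    (a d b : ℕ) (had : a * d = N) (haN : a < N) (ha0 : 0 < a) :
    IsNice (N : ℝ) (DeltaN N - ((d : ℂ) ^ (-12 : ℤ)) • DeltaAff a d b) ∧
    ∃ (c : ℂ) (f v : PowerSeries (B N)) (k : ℕ), c ≠ 0 ∧
      c • qExpansion (N : ℝ) (DeltaN N - ((d : ℂ) ^ (-12 : ℤ)) • DeltaAff a d b) =
        f.map (ev N) ∧
      f * v = PowerSeries.X ^ k := by
  have hNpos : (0 : ℝ) < N := by exact_mod_cast NeZero.pos N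
  have hDN : DeltaN N = DeltaAff N 1 0 := by
    funext τ; simp [DeltaN, DeltaAff]
  obtain ⟨hniceN, hexpN⟩ := hexp N 1 0 (mul_one N) (NeZero.pos N)
  obtain ⟨hnice, hexp'⟩ := hexp a d b had ha0
  have hd0 : (d : ℂ) ≠ 0 := by
    rintro h
    have : d = 0 := by exact_mod_cast h
    subst this
    exact (NeZero.ne N) (by simpa using had.symm)
  rw [hDN]
  refine ⟨hniceN.sub (hnice.smul _), (d : ℂ) ^ 12,
    PowerSeries.C ((d : B N) ^ 12) * liftAff N sΔ N 0 - liftAff N sΔ a b, ?_⟩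
  have hlt : a ^ 2 < N ^ 2 := Nat.pow_lt_pow_left haN (by norm_num)
  have hlow : ∀ i < a ^ 2, PowerSeries.coeff i
      (PowerSeries.C ((d : B N) ^ 12) * liftAff N sΔ N 0 - liftAff N sΔ a b) = 0 := by
    intro i hi
    rw [map_sub, PowerSeries.coeff_C_mul, coeff_liftAff_of_lt N sΔ h0 a b hi,
      coeff_liftAff_of_lt N sΔ h0 N 0 (hi.trans hlt)]
    simp
  have hunit : IsUnit (PowerSeries.coeff (a ^ 2)
      (PowerSeries.C ((d : B N) ^ 12) * liftAff N sΔ N 0 - liftAff N sΔ a b)) := by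
    rw [map_sub, PowerSeries.coeff_C_mul, coeff_liftAff_self N sΔ h1 a b ha0,
      coeff_liftAff_of_lt N sΔ h0 N 0 hlt]
    simpa using ((isUnit_root N).pow (a * b)).neg
  obtain ⟨v, hv⟩ := exists_mul_eq_X_pow _ (a ^ 2) hlow hunit
  refine ⟨v, a ^ 2, pow_ne_zero _ hd0, ?_, hv⟩
  rw [qExpansion_sub hNpos hniceN (hnice.smul _), qExpansion_smul hNpos _ hnice, smul_sub,
    smul_smul, map_sub, map_mul, PowerSeries.map_C, map_liftAff N sΔ hsΔ,
    map_liftAff N sΔ hsΔ, ← hexpN, ← hexp']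
  have hdd : (d : ℂ) ^ 12 * (d : ℂ) ^ (-12 : ℤ) = 1 := by
    rw [zpow_neg]
    exact mul_inv_cancel₀ (by exact_mod_cast pow_ne_zero 12 hd0)
  rw [hdd, one_smul, map_pow, map_natCast, PowerSeries.smul_eq_C_mul]

end Fermat.Agent.S23.DeltaExp

namespace Fermat.Agent.S23

open UpperHalfPlane
open scoped MatrixGroups ModularForm Manifold Real

theorem exists_inverse_qExpansion_diffFun (N : ℕ) [NeZero N] (hN : ModularForm (Gam N) 12)
    (hcoe : ⇑hN = DeltaN N)
    (sΔ : PowerSeries ℤ)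
    (hsΔ : sΔ.map (Int.castRingHom ℂ) = qExpansion 1 ModularForm.discriminant)
    (h0 : PowerSeries.coeff 0 sΔ = 0) (h1 : PowerSeries.coeff 1 sΔ = 1)
    (hslash : ∀ γ : SL(2, ℤ), γ ∉ CongruenceSubgroup.Gamma0 N →
      ∃ a d b : ℕ, a * d = N ∧ a < N ∧ 0 < a ∧
        DeltaN N ∣[(12 : ℤ)] γ = ((d : ℂ) ^ (-12 : ℤ)) • DeltaAff a d b)
    (hexp : ∀ a d b : ℕ, a * d = N → 0 < a →
      IsNice (N : ℝ) (DeltaAff a d b) ∧
      qExpansion (N : ℝ) (DeltaAff a d b) =
        PowerSeries.mk (fun n => if a ^ 2 ∣ n then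
          (qExpansion 1 ModularForm.discriminant).coeff (n / a ^ 2) *
            Complex.exp (2 * π * Complex.I / (N : ℂ)) ^ (a * b * (n / a ^ 2))
          else 0)) :
    ∃ (r : ℕ) (L : Type) (_ : Fintype L) (ω : L → ℂ) (e : L → PowerSeries ℤ),
      qExpansion (N : ℝ) (diffFun hN) * ∑ l, ω l • (e l).map (Int.castRingHom ℂ) =
        (PowerSeries.X : PowerSeries ℂ) ^ r := by
  classical
  have hNpos : (0 : ℝ) < N := by exact_mod_cast NeZero.pos N
  set s : Finset (Q (Gam N)) := Finset.univ.erase (QuotientGroup.mk 1 : Q (Gam N)) with hs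
  have key : ∀ q ∈ s, IsNice (N : ℝ) (⇑hN - SlashInvariantForm.quotientFunc hN q) ∧
      ∃ (c : ℂ) (f v : PowerSeries (DeltaExp.B N)) (k : ℕ), c ≠ 0 ∧
        c • qExpansion (N : ℝ) (⇑hN - SlashInvariantForm.quotientFunc hN q) =
          f.map (DeltaExp.ev N) ∧
        f * v = PowerSeries.X ^ k := by
    intro q hq
    obtain ⟨a, d, b, had, haN, ha0, hq'⟩ :=
      DeltaExp.quotientFunc_eq N hN hcoe hslash q (Finset.ne_of_mem_erase hq)
    rw [hq', hcoe]
    exact DeltaExp.factor N sΔ hsΔ h0 h1 hexp a d b had haN ha0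
  choose! hnice c f v k _hc hf hv using key
  have hdiff : diffFun hN = ∏ q ∈ s, (⇑hN - SlashInvariantForm.quotientFunc hN q) := by
    funext τ
    rw [diffFun_apply, Finset.prod_apply]
    rfl
  have hq1 : qExpansion (N : ℝ) (diffFun hN) =
      ∏ q ∈ s, qExpansion (N : ℝ) (⇑hN - SlashInvariantForm.quotientFunc hN q) := by
    rw [hdiff]
    exact qExpansion_prod hNpos s hnice
  have hq2 : (∏ q ∈ s, c q) • qExpansion (N : ℝ) (diffFun hN) =
      (∏ q ∈ s, f q).map (DeltaExp.ev N) := by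
    rw [hq1, ← Finset.prod_smul, map_prod]
    exact Finset.prod_congr rfl hf
  have hfv : (∏ q ∈ s, f q) * (∏ q ∈ s, v q) = PowerSeries.X ^ (∑ q ∈ s, k q) := by
    rw [← Finset.prod_mul_distrib, Finset.prod_congr rfl hv, Finset.prod_pow_eq_pow_sum]
  obtain ⟨L, instL, ω, e, hdec⟩ := DeltaExp.exists_decomp N (∏ q ∈ s, v q)
  refine ⟨∑ q ∈ s, k q, L, instL, fun l => (∏ q ∈ s, c q) * ω l, e, ?_⟩
  have h3 : ∑ l, ((∏ q ∈ s, c q) * ω l) • (e l).map (Int.castRingHom ℂ) =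
      (∏ q ∈ s, c q) • (∏ q ∈ s, v q).map (DeltaExp.ev N) := by
    rw [hdec, Finset.smul_sum]
    exact Finset.sum_congr rfl fun l _ => (smul_smul _ _ _).symm
  rw [h3, mul_smul_comm, ← smul_mul_assoc, hq2, ← map_mul, hfv, map_pow, PowerSeries.map_X]

end Fermat.Agent.S23
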