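/-
The modular form `Δ(N τ)` on `Γ₀(N)` and its conjugates under `SL(2, ℤ)`.
-/
import Fermat.Agent.S23.Basic

set_option autoImplicit false

namespace Fermat.Agent.S23

open UpperHalfPlane
open scoped MatrixGroups ModularForm Manifold

namespace DeltaN

/-- The upper triangular matrix `!![a, b; 0, d]` in `GL(2, ℝ)`. -/
noncomputable def ut (a b d : ℝ) (had : a * d ≠ 0) : GL (Fin 2) ℝ :=
  Matrix.GeneralLinearGroup.mkOfDetNeZero !![a, b; 0, d]
    (by rwa [Matrix.det_fin_two_of, mul_zero, sub_zero])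

lemma val_ut (a b d : ℝ) (had : a * d ≠ 0) :
    ((ut a b d had : GL (Fin 2) ℝ) : Matrix (Fin 2) (Fin 2) ℝ) = !![a, b; 0, d] := rfl

lemma det_ut (a b d : ℝ) (had : a * d ≠ 0) : ((ut a b d had).det : ℝ) = a * d := by
  rw [Matrix.GeneralLinearGroup.val_det_apply, val_ut, Matrix.det_fin_two_of]
  ring

lemma σ_ut (a b d : ℝ) (had : 0 < a * d) : UpperHalfPlane.σ (ut a b d had.ne') = .refl ℝ ℂ := by
  rw [UpperHalfPlane.σ, if_pos (by rw [det_ut]; exact had)]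

lemma denom_ut (a b d : ℝ) (had : a * d ≠ 0) (τ : ℍ) :
    UpperHalfPlane.denom (ut a b d had) τ = d := by
  simp [UpperHalfPlane.denom, val_ut]

lemma coe_ut_smul (a b d : ℝ) (had : 0 < a * d) (τ : ℍ) :
    ((ut a b d had.ne' • τ : ℍ) : ℂ) = ((a : ℂ) * (τ : ℂ) + b) / d := by
  rw [UpperHalfPlane.coe_smul_of_det_pos (by rw [det_ut]; exact had)]
  simp [UpperHalfPlane.num, UpperHalfPlane.denom, val_ut]

/-- The weight `k` slash action of `!![a, b; 0, d]` (with `a d > 0`). -/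
lemma slash_ut_apply (k : ℤ) (a b d : ℝ) (had : 0 < a * d) (f : ℍ → ℂ) (τ : ℍ) :
    (f ∣[k] ut a b d had.ne') τ =
      f (ut a b d had.ne' • τ) * ((a * d : ℝ) : ℂ) ^ (k - 1) * (d : ℂ) ^ (-k) := by
  rw [ModularForm.slash_apply, σ_ut a b d had, det_ut, denom_ut, abs_of_pos had]
  simp

lemma ofComplex_ut (a b d : ℝ) (had : 0 < a * d) (τ : ℍ) :
    ofComplex (((a : ℂ) * (τ : ℂ) + b) / d) = ut a b d had.ne' • τ := by
  rw [← coe_ut_smul a b d had τ, ofComplex_apply]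

/-- The basic matrix identity: if `M * A = B * U` as integer matrices (`A`, `B` of determinant
one, `M`, `U` upper triangular), then the same holds in `GL(2, ℝ)`. -/
lemma gl_eq_of_int (A B : SL(2, ℤ)) (m1 m2 m3 u1 u2 u3 : ℤ) (h1 : (m1 : ℝ) * m3 ≠ 0)
    (h2 : (u1 : ℝ) * u3 ≠ 0)
    (h : !![m1, m2; 0, m3] * (A : Matrix (Fin 2) (Fin 2) ℤ) =
      (B : Matrix (Fin 2) (Fin 2) ℤ) * !![u1, u2; 0, u3]) :
    ut m1 m2 m3 h1 * Matrix.SpecialLinearGroup.mapGL ℝ A =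
      Matrix.SpecialLinearGroup.mapGL ℝ B * ut u1 u2 u3 h2 := by
  have h00 := congrFun (congrFun h 0) 0
  have h01 := congrFun (congrFun h 0) 1
  have h10 := congrFun (congrFun h 1) 0
  have h11 := congrFun (congrFun h 1) 1
  simp only [Matrix.mul_apply, Fin.sum_univ_two, Matrix.of_apply, Matrix.cons_val_zero,
    Matrix.cons_val_one, Matrix.cons_val', Matrix.cons_val_fin_one] at h00 h01 h10 h11
  have h00' : (m1 : ℝ) * A 0 0 + m2 * A 1 0 = B 0 0 * u1 + B 0 1 * 0 := by exact_mod_cast h00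
  have h01' : (m1 : ℝ) * A 0 1 + m2 * A 1 1 = B 0 0 * u2 + B 0 1 * u3 := by exact_mod_cast h01
  have h10' : (0 : ℝ) * A 0 0 + m3 * A 1 0 = B 1 0 * u1 + B 1 1 * 0 := by exact_mod_cast h10
  have h11' : (0 : ℝ) * A 0 1 + m3 * A 1 1 = B 1 0 * u2 + B 1 1 * u3 := by exact_mod_cast h11
  apply Units.ext
  ext i j
  fin_cases i <;> fin_cases j <;>
    simp [Matrix.mul_apply, Fin.sum_univ_two, val_ut] <;> linarith

/-- The diagonal matrix `!![N, 0; 0, 1]` in `GL(2, ℝ)`. -/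
noncomputable def dg (N : ℕ) [NeZero N] : GL (Fin 2) ℝ :=
  ut ((N : ℤ) : ℝ) ((0 : ℤ) : ℝ) ((1 : ℤ) : ℝ) (by
    have : (N : ℝ) ≠ 0 := Nat.cast_ne_zero.mpr (NeZero.ne N)
    simpa using this)

lemma dg_pos (N : ℕ) [NeZero N] : 0 < (((N : ℤ) : ℝ)) * (((1 : ℤ) : ℝ)) := by
  have : 0 < (N : ℝ) := Nat.cast_pos.mpr (NeZero.pos N)
  simpa using this

/-- `Δ(N τ)` is a constant multiple of the slash of `Δ` by `!![N, 0; 0, 1]`. -/
lemma DeltaN_eq (N : ℕ) [NeZero N] :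
    DeltaN N = ((N : ℂ) ^ (-11 : ℤ)) • (ModularForm.discriminant ∣[(12 : ℤ)] dg N) := by
  have hN : (N : ℂ) ≠ 0 := Nat.cast_ne_zero.mpr (NeZero.ne N)
  funext τ
  rw [Pi.smul_apply, dg, slash_ut_apply 12 _ _ _ (dg_pos N), ← ofComplex_ut _ _ _ (dg_pos N)]
  simp only [DeltaN, Int.cast_natCast, Int.cast_zero, Int.cast_one, Complex.ofReal_natCast,
    Complex.ofReal_zero, Complex.ofReal_one, add_zero, div_one, mul_one, smul_eq_mul, one_zpow]
  rw [mul_left_comm, ← zpow_add₀ hN]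
  norm_num

open scoped Pointwise in
/-- `Γ₀(N)` is contained in the conjugate of `SL(2, ℤ)` by `!![N, 0; 0, 1]`. -/
lemma Gam_le (N : ℕ) [NeZero N] :
    Gam N ≤ ConjAct.toConjAct (dg N)⁻¹ • (𝒮ℒ : Subgroup (GL (Fin 2) ℝ)) := by
  rintro _ ⟨γ, hγ, rfl⟩
  rw [map_inv, Subgroup.mem_inv_pointwise_smul_iff, ConjAct.toConjAct_smul]
  have hγ' : (N : ℤ) ∣ γ 1 0 := by
    rw [SetLike.mem_coe, CongruenceSubgroup.Gamma0_mem] at hγ
    exact (ZMod.intCast_zmod_eq_zero_iff_dvd _ _).mp hγ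
  obtain ⟨r', hr'⟩ := hγ'
  have hdet : γ 0 0 * γ 1 1 - γ 0 1 * γ 1 0 = 1 := by
    have := γ.det_coe
    rwa [Matrix.det_fin_two] at this
  let γ' : SL(2, ℤ) := ⟨!![γ 0 0, N * γ 0 1; r', γ 1 1], by
    rw [Matrix.det_fin_two_of]
    rw [hr'] at hdet
    linear_combination hdet⟩
  refine ⟨γ', ?_⟩
  rw [eq_mul_inv_iff_mul_eq]
  symm
  apply gl_eq_of_int
  ext i j
  fin_cases i <;> fin_cases j <;>
    simp [γ', Matrix.mul_apply, Fin.sum_univ_two, hr'] <;> ring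

open scoped Pointwise in
lemma isMF_aux (N : ℕ) [NeZero N] : IsMF (Gam N) 12 (DeltaN N) := by
  rw [DeltaN_eq]
  apply IsMF.smul
  apply IsMF.mono (Gam_le N)
  exact ⟨ModularForm.translate CuspForm.discriminant (dg N), by
    rw [ModularForm.coe_translate, CuspForm.coe_discriminant]⟩

/-- Integer matrix decomposition `diag(N, 1) * γ = γ₁ * !![a, b; 0, d]` with `γ₁ ∈ SL(2, ℤ)`,
`a d = N`, `a = gcd(N γ₀₀, γ₁₀)`. -/
lemma exists_decomp (N : ℕ) [NeZero N] (γ : SL(2, ℤ)) :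
    ∃ (a d b : ℕ) (γ₁ : SL(2, ℤ)), a * d = N ∧ 0 < a ∧ ((a : ℤ) ∣ γ 1 0) ∧
      !![(N : ℤ), 0; 0, 1] * (γ : Matrix (Fin 2) (Fin 2) ℤ) =
        (γ₁ : Matrix (Fin 2) (Fin 2) ℤ) * !![(a : ℤ), (b : ℤ); 0, (d : ℤ)] := by
  have hN0 : (N : ℤ) ≠ 0 := Nat.cast_ne_zero.mpr (NeZero.ne N)
  have hdet : γ 0 0 * γ 1 1 - γ 0 1 * γ 1 0 = 1 := by
    have := γ.det_coe
    rwa [Matrix.det_fin_two] at this
  set p := γ 0 0 with hp
  set q := γ 0 1 with hq
  set r := γ 1 0 with hr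
  set s := γ 1 1 with hs
  set a : ℕ := Int.gcd ((N : ℤ) * p) r with ha
  have ha_pos : 0 < a := by
    rw [ha, Int.gcd_pos_iff]
    by_cases hr0 : r = 0
    · left
      have hp0 : p ≠ 0 := by
        rintro hp0
        rw [hp0, hr0] at hdet
        simp at hdet
      exact mul_ne_zero hN0 hp0
    · right; exact hr0
  have ha1 : (a : ℤ) ∣ (N : ℤ) * p := Int.gcd_dvd_left _ _
  have ha2 : (a : ℤ) ∣ r := Int.gcd_dvd_right _ _
  have haN : (a : ℤ) ∣ (N : ℤ) := by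
    have h1 : (a : ℤ) ∣ (N : ℤ) * p * s - (N : ℤ) * q * r :=
      dvd_sub (Dvd.dvd.mul_right ha1 _) (Dvd.dvd.mul_left ha2 _)
    have h2 : (N : ℤ) * p * s - (N : ℤ) * q * r = N := by linear_combination (N : ℤ) * hdet
    rwa [h2] at h1
  obtain ⟨d, hd⟩ := Int.natCast_dvd_natCast.mp haN
  have hd_pos : 0 < d := by
    rcases Nat.eq_zero_or_pos d with h | h
    · rw [h, mul_zero] at hd
      exact absurd hd (NeZero.ne N)
    · exact h
  obtain ⟨r', hr'⟩ := ha2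
  have hNz : (N : ℤ) = a * d := by exact_mod_cast hd
  have ha0 : (a : ℤ) ≠ 0 := by exact_mod_cast ha_pos.ne'
  have hd0 : (d : ℤ) ≠ 0 := by exact_mod_cast hd_pos.ne'
  -- Bezout coefficients for `gcd(N p, r) = a`
  set u := Int.gcdA ((N : ℤ) * p) r with hu
  set v := Int.gcdB ((N : ℤ) * p) r with hv
  have hbez0 : (a : ℤ) = (N : ℤ) * p * u + r * v := Int.gcd_eq_gcd_ab _ _
  have hbez : (d : ℤ) * p * u + r' * v = 1 := by
    apply mul_left_cancel₀ ha0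
    rw [hNz, hr'] at hbez0
    linear_combination -hbez0
  -- the upper right entry, reduced modulo `d`
  set b₀ : ℤ := u * N * q + v * s with hb₀
  set k : ℤ := b₀ / d with hk
  set b : ℤ := b₀ % d with hb
  have hbk : b = u * N * q + v * s - d * k := by
    have := Int.emod_add_mul_ediv b₀ d
    rw [← hb₀]
    linear_combination this
  have hb_nonneg : 0 ≤ b := Int.emod_nonneg _ hd0
  have hbnat : ((b.toNat : ℕ) : ℤ) = b := Int.toNat_of_nonneg hb_nonneg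
  let γ₁ : SL(2, ℤ) := ⟨!![d * p, d * p * k - v; r', r' * k + u], by
    rw [Matrix.det_fin_two_of]
    linear_combination hbez⟩
  refine ⟨a, d, b.toNat, γ₁, hd.symm, ha_pos, ⟨r', hr'⟩, ?_⟩
  rw [hbnat]
  ext i j
  fin_cases i <;> fin_cases j <;>
    simp only [γ₁, Matrix.mul_apply, Fin.sum_univ_two, Matrix.of_apply, Matrix.cons_val_zero,
      Matrix.cons_val_one, Matrix.cons_val', Matrix.cons_val_fin_one, Fin.zero_eta, Fin.mk_one,
      Fin.isValue, ← hp, ← hq, ← hr, ← hs]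
  · linear_combination p * hNz
  · linear_combination (q * v * r') * hNz - (q * v * d) * hr' - (N * q) * hbez - (d * v) * hdet
      - (d * p) * hbk
  · linear_combination hr'
  · linear_combination (u * q * d) * hr' - (u * q * r') * hNz + (u * d) * hdet - s * hbez
      - r' * hbk

lemma slash_aux (N : ℕ) [NeZero N] (γ : SL(2, ℤ)) (hγ : γ ∉ CongruenceSubgroup.Gamma0 N) :
    ∃ a d b : ℕ, a * d = N ∧ a < N ∧ 0 < a ∧
      DeltaN N ∣[(12 : ℤ)] γ = ((d : ℂ) ^ (-12 : ℤ)) • DeltaAff a d b := by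
  obtain ⟨a, d, b, γ₁, had, ha, hadvd, hmat⟩ := exists_decomp N γ
  have hd : 0 < d := by
    rcases Nat.eq_zero_or_pos d with h | h
    · rw [h, mul_zero] at had
      exact absurd had.symm (NeZero.ne N)
    · exact h
  refine ⟨a, d, b, had, ?_, ha, ?_⟩
  · have hle : a ≤ N := Nat.le_of_dvd (NeZero.pos N) ⟨d, had.symm⟩
    rcases hle.lt_or_eq with h | h
    · exact h
    · exfalso
      apply hγ
      rw [CongruenceSubgroup.Gamma0_mem, ZMod.intCast_zmod_eq_zero_iff_dvd, ← h]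
      exact hadvd
  · have hpos : 0 < ((a : ℤ) : ℝ) * ((d : ℤ) : ℝ) := by
      have h1 : 0 < (a : ℝ) := Nat.cast_pos.mpr ha
      have h2 : 0 < (d : ℝ) := Nat.cast_pos.mpr hd
      simpa using mul_pos h1 h2
    have key : dg N * Matrix.SpecialLinearGroup.mapGL ℝ γ =
        Matrix.SpecialLinearGroup.mapGL ℝ γ₁ * ut (a : ℤ) (b : ℤ) (d : ℤ) hpos.ne' :=
      gl_eq_of_int γ γ₁ N 0 1 a b d _ _ hmat
    have hinv : ModularForm.discriminant ∣[(12 : ℤ)] (Matrix.SpecialLinearGroup.mapGL ℝ γ₁) =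
        ModularForm.discriminant := by
      rw [← CuspForm.coe_discriminant]
      exact SlashInvariantForm.slash_action_eqn CuspForm.discriminant _ ⟨γ₁, rfl⟩
    have hSL : ∀ f : ℍ → ℂ, f ∣[(12 : ℤ)] γ =
        f ∣[(12 : ℤ)] (Matrix.SpecialLinearGroup.mapGL ℝ γ) := fun _ => rfl
    rw [DeltaN_eq, ModularForm.SL_smul_slash, hSL, ← SlashAction.slash_mul, key,
      SlashAction.slash_mul, hinv]
    have hNc : (N : ℂ) = (a : ℂ) * (d : ℂ) := by rw [← had]; push_cast; ring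
    have ha0 : (a : ℂ) ≠ 0 := Nat.cast_ne_zero.mpr ha.ne'
    have hd0 : (d : ℂ) ≠ 0 := Nat.cast_ne_zero.mpr hd.ne'
    funext τ
    rw [Pi.smul_apply, Pi.smul_apply, slash_ut_apply 12 _ _ _ hpos, DeltaAff,
      ← ofComplex_ut _ _ _ hpos]
    simp only [Int.cast_natCast, Complex.ofReal_natCast, Complex.ofReal_mul, smul_eq_mul, hNc]
    rw [show ((12 : ℤ) - 1) = 11 by norm_num, mul_assoc, mul_left_comm, ← mul_assoc (_ ^ _),
      ← zpow_add₀ (mul_ne_zero ha0 hd0)]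
    simp [mul_comm]

end DeltaN

/-- `τ ↦ Δ(N τ)` is a modular form of weight 12 on `Γ₀(N)`. -/
theorem DeltaN_isMF (N : ℕ) [NeZero N] : IsMF (Gam N) 12 (DeltaN N) := by
  exact DeltaN.isMF_aux N

/-- The conjugates of `Δ(N τ)`: for `γ ∈ SL(2, ℤ)` not in `Γ₀(N)`, the weight 12 slash of `Δ(N τ)`
by `γ` is `d⁻¹² Δ((a τ + b) / d)` with `a d = N` and `a < N`. -/
theorem DeltaN_slash (N : ℕ) [NeZero N] (γ : SL(2, ℤ)) (hγ : γ ∉ CongruenceSubgroup.Gamma0 N) :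
    ∃ a d b : ℕ, a * d = N ∧ a < N ∧ 0 < a ∧
      DeltaN N ∣[(12 : ℤ)] γ = ((d : ℂ) ^ (-12 : ℤ)) • DeltaAff a d b := by
  exact DeltaN.slash_aux N γ hγ

end Fermat.Agent.S23
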