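/-
Characteristic polynomial of a modular form over level one: the elementary symmetric functions of
the conjugates of a modular form on an arithmetic subgroup are level one modular forms.
-/
import Fermat.Agent.S23.Basic

set_option autoImplicit false

namespace Fermat.Agent.S23

open UpperHalfPlane
open scoped MatrixGroups ModularForm Manifold

variable {𝒢 : Subgroup (GL (Fin 2) ℝ)} [𝒢.IsArithmetic] {k : ℤ} {F : Type*} [FunLike F ℍ ℂ]

namespace CharPoly

/-- `charCoeff` as a signed sum of products of conjugates over subsets of cosets. -/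
lemma charCoeff_eq [SlashInvariantFormClass F 𝒢 k] (f : F) (i : ℕ) :
    charCoeff f i = (-1 : ℂ) ^ i •
      ∑ t ∈ (Finset.univ : Finset (Q 𝒢)).powersetCard i,
        ∏ q ∈ t, SlashInvariantForm.quotientFunc f q := by
  ext τ
  simp [charCoeff, Finset.esymm_map_val, Finset.sum_apply, Finset.prod_apply]

omit [𝒢.IsArithmetic] in
/-- Every conjugate is the slash of `f` by an element of `SL(2, ℤ)`. -/
lemma exists_quotientFunc_eq [SlashInvariantFormClass F 𝒢 k] (f : F) (q : Q 𝒢) :
    ∃ γ : SL(2, ℤ), SlashInvariantForm.quotientFunc f q = (⇑f) ∣[k] γ := by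
  induction q using Quotient.inductionOn with
  | h r =>
    obtain ⟨r, γ, rfl⟩ := r
    refine ⟨γ⁻¹, ?_⟩
    rw [SlashInvariantForm.quotientFunc_mk, ModularForm.SL_slash]
    exact congrArg (fun g => (⇑f) ∣[k] g) (map_inv (Matrix.SpecialLinearGroup.mapGL ℝ) γ).symm

omit [𝒢.IsArithmetic] in
lemma mdiff_quotientFunc [ModularFormClass F 𝒢 k] (f : F) (q : Q 𝒢) :
    MDiff (SlashInvariantForm.quotientFunc f q) := by
  obtain ⟨γ, hγ⟩ := exists_quotientFunc_eq f q
  rw [hγ, ModularForm.SL_slash]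
  exact (ModularFormClass.holo f).slash k _

lemma bdd_quotientFunc [ModularFormClass F 𝒢 k] (f : F) (q : Q 𝒢) :
    IsBoundedAtImInfty (SlashInvariantForm.quotientFunc f q) := by
  obtain ⟨γ, hγ⟩ := exists_quotientFunc_eq f q
  rw [hγ]
  exact ModularFormClass.bdd_at_infty_slash f γ

lemma zero_quotientFunc [CuspFormClass F 𝒢 k] (f : F) (q : Q 𝒢) :
    IsZeroAtImInfty (SlashInvariantForm.quotientFunc f q) := by
  obtain ⟨γ, hγ⟩ := exists_quotientFunc_eq f q
  rw [hγ]
  exact CuspFormClass.zero_at_infty_slash f γ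

/-- The element of `𝒮ℒ` attached to `γ : SL(2, ℤ)`. -/
noncomputable def toSL (γ : SL(2, ℤ)) : ↥𝒮ℒ := ⟨Matrix.SpecialLinearGroup.mapGL ℝ γ, ⟨γ, rfl⟩⟩

omit [𝒢.IsArithmetic] in
/-- Slashing a product of conjugates over a set `t` of cosets permutes the cosets. -/
lemma slash_prod_quotientFunc [SlashInvariantFormClass F 𝒢 k] (f : F) (γ : SL(2, ℤ))
    (t : Finset (Q 𝒢)) :
    (∏ q ∈ t, SlashInvariantForm.quotientFunc f q) ∣[k * (t.card : ℤ)] γ =
      ∏ q ∈ t.map (MulAction.toPerm (toSL γ)⁻¹ : Equiv.Perm (Q 𝒢)).toEmbedding,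
        SlashInvariantForm.quotientFunc f q := by
  change (∏ q ∈ t, SlashInvariantForm.quotientFunc f q) ∣[k * (t.card : ℤ)]
    (Matrix.SpecialLinearGroup.mapGL ℝ γ) = _
  have hdet : |(Matrix.SpecialLinearGroup.mapGL ℝ γ : GL (Fin 2) ℝ).det.val| = 1 := by simp
  rw [ModularForm.prod_slash, Finset.prod_map, hdet, one_zpow, one_smul]
  refine Finset.prod_congr rfl fun q _ => ?_
  exact SlashInvariantForm.quotientFunc_smul f (toSL γ).2 q

/-- The sum over all `i`-element sets of cosets of the products of conjugates is invariant under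
the weight `k * i` action of `SL(2, ℤ)`. -/
lemma slash_sum_powersetCard [SlashInvariantFormClass F 𝒢 k] (f : F) (γ : SL(2, ℤ)) (i : ℕ) :
    (∑ t ∈ (Finset.univ : Finset (Q 𝒢)).powersetCard i,
        ∏ q ∈ t, SlashInvariantForm.quotientFunc f q) ∣[k * (i : ℤ)] γ =
      ∑ t ∈ (Finset.univ : Finset (Q 𝒢)).powersetCard i,
        ∏ q ∈ t, SlashInvariantForm.quotientFunc f q := by
  have key : ∀ t ∈ (Finset.univ : Finset (Q 𝒢)).powersetCard i,
      (∏ q ∈ t, SlashInvariantForm.quotientFunc f q) ∣[k * (i : ℤ)] γ =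
        ∏ q ∈ t.map (MulAction.toPerm (toSL γ)⁻¹ : Equiv.Perm (Q 𝒢)).toEmbedding,
          SlashInvariantForm.quotientFunc f q := by
    intro t ht
    rw [← (Finset.mem_powersetCard.mp ht).2]
    exact slash_prod_quotientFunc f γ t
  rw [SlashAction.sum_slash, Finset.sum_congr rfl key]
  conv_rhs =>
    rw [← Finset.map_univ_equiv (MulAction.toPerm (toSL γ)⁻¹ : Equiv.Perm (Q 𝒢)),
      Finset.powersetCard_map, Finset.sum_map]
  rfl

end CharPoly

theorem charCoeff_zero [SlashInvariantFormClass F 𝒢 k] (f : F) : charCoeff f 0 = 1 := by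
  ext τ
  simp [charCoeff, Finset.esymm_map_val]

/-- The coefficients of the characteristic polynomial are level one modular forms. -/
theorem charCoeff_isMF [ModularFormClass F 𝒢 k] (f : F) (i : ℕ) :
    IsMF 𝒮ℒ (k * i) (charCoeff f i) := by
  rw [CharPoly.charCoeff_eq]
  refine IsMF.levelOne_mk ?_ ?_ ?_
  · exact MDifferentiable.const_smul _
      (MDifferentiable.sum fun t _ => MDifferentiable.prod fun q _ =>
        CharPoly.mdiff_quotientFunc f q)
  · intro γ
    rw [ModularForm.SL_smul_slash, CharPoly.slash_sum_powersetCard]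
  · refine Filter.BoundedAtFilter.smul _ ?_
    exact (Filter.boundedFilterSubmodule ℂ atImInfty).sum_mem fun t _ =>
      Filter.BoundedAtFilter.prod t fun q _ => CharPoly.bdd_quotientFunc f q

/-- For a cusp form, the non-leading coefficients of the characteristic polynomial vanish at `i∞`. -/
theorem charCoeff_isZeroAtImInfty [CuspFormClass F 𝒢 k] (f : F) {i : ℕ} (hi : 0 < i) :
    IsZeroAtImInfty (charCoeff f i) := by
  classical
  rw [CharPoly.charCoeff_eq]
  refine Filter.ZeroAtFilter.smul _ ?_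
  refine (Filter.zeroAtFilterSubmodule ℂ atImInfty).sum_mem fun t ht => ?_
  have hcard : t.card = i := (Finset.mem_powersetCard.mp ht).2
  have hne : t.Nonempty := Finset.card_pos.mp (hcard ▸ hi)
  obtain ⟨q₀, hq₀⟩ := hne
  rw [← Finset.mul_prod_erase t _ hq₀]
  exact Filter.ZeroAtFilter.mul_boundedAtFilter (CharPoly.zero_quotientFunc f q₀)
    (Filter.BoundedAtFilter.prod _ fun q _ => CharPoly.bdd_quotientFunc f q)

/-- Vieta: the characteristic polynomial at a point `τ`. -/
theorem prod_X_sub_C_quotientFunc [SlashInvariantFormClass F 𝒢 k] (f : F) (τ : ℍ) :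
    ∏ q : Q 𝒢, (Polynomial.X - Polynomial.C (SlashInvariantForm.quotientFunc f q τ)) =
      ∑ i ∈ Finset.range (idx 𝒢 + 1),
        Polynomial.C (charCoeff f i τ) * Polynomial.X ^ (idx 𝒢 - i) := by
  have h := Multiset.prod_X_sub_X_eq_sum_esymm
    ((Finset.univ : Finset (Q 𝒢)).val.map fun q => SlashInvariantForm.quotientFunc f q τ)
  have hcard : Multiset.card (Finset.univ : Finset (Q 𝒢)).val = idx 𝒢 := rfl
  rw [Multiset.map_map, Multiset.card_map, hcard] at h
  rw [Finset.prod_eq_multiset_prod]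
  refine h.trans (Finset.sum_congr rfl fun i _ => ?_)
  simp [charCoeff, mul_assoc]

/-- `f` is a root of its characteristic polynomial. -/
theorem charCoeff_root [SlashInvariantFormClass F 𝒢 k] (f : F) (τ : ℍ) :
    ∑ i ∈ Finset.range (idx 𝒢 + 1), charCoeff f i τ * f τ ^ (idx 𝒢 - i) = 0 := by
  have h := congrArg (Polynomial.eval (f τ)) (prod_X_sub_C_quotientFunc f τ)
  rw [Polynomial.eval_prod, Polynomial.eval_finsetSum] at h
  have h0 : ∏ q : Q 𝒢,
      Polynomial.eval (f τ)
        (Polynomial.X - Polynomial.C (SlashInvariantForm.quotientFunc f q τ)) = 0 := by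
    refine Finset.prod_eq_zero (Finset.mem_univ (QuotientGroup.mk 1 : Q 𝒢)) ?_
    have h1 : SlashInvariantForm.quotientFunc f (QuotientGroup.mk 1 : Q 𝒢) τ = f τ := by
      change ((⇑f) ∣[k] ((1 : ↥𝒮ℒ) : GL (Fin 2) ℝ)⁻¹) τ = f τ
      rw [OneMemClass.coe_one, inv_one, SlashAction.slash_one]
    simp [h1]
  rw [h0] at h
  rw [h]
  refine Finset.sum_congr rfl fun i _ => ?_
  simp

end Fermat.Agent.S23
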