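/-
Lagrange interpolation over level one: `f * diffFun h` is a polynomial in `h` with level one
coefficients.
-/
import Fermat.Agent.S23.CharPoly

set_option autoImplicit false

namespace Fermat.Agent.S23.Lagrange

open Polynomial in
/-- The values of the polynomial `∏ q' ≠ q, (X - x q')`, in terms of the coefficients of
`∏ q', (X - x q')` (division by `X - x q`, Horner's scheme). -/
theorem eval_nodal_erase_eq_sum {ι : Type*} [Fintype ι] [DecidableEq ι] (x : ι → ℂ) (q : ι)
    (z : ℂ) :
    eval z (Lagrange.nodal (Finset.univ.erase q) x) =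
      ∑ i ∈ Finset.range (Fintype.card ι),
        (∑ m ∈ Finset.Icc (i + 1) (Fintype.card ι),
          x q ^ (m - (i + 1)) * (Lagrange.nodal Finset.univ x).coeff m) * z ^ i := by
  have h1 : Lagrange.nodal (Finset.univ.erase q) x =
      Lagrange.nodal Finset.univ x /ₘ (X - C (x q)) := by
    rw [Lagrange.nodal_eq_mul_nodal_erase (Finset.mem_univ q),
      mul_divByMonic_cancel_left _ (monic_X_sub_C _)]
  have h2 : (Lagrange.nodal (Finset.univ.erase q) x).natDegree < Fintype.card ι := by
    rw [Lagrange.natDegree_nodal, Finset.card_erase_of_mem (Finset.mem_univ q), Finset.card_univ]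
    exact Nat.sub_lt (Fintype.card_pos_iff.2 ⟨q⟩) one_pos
  rw [eval_eq_sum_range' h2]
  refine Finset.sum_congr rfl fun i _ => ?_
  rw [h1, coeff_divByMonic_X_sub_C, Lagrange.natDegree_nodal, Finset.card_univ]

open Polynomial in
/-- The algebraic identity behind Lagrange interpolation. -/
theorem lagrange_identity {ι : Type*} [Fintype ι] [DecidableEq ι] (x y : ι → ℂ) (q₀ : ι) :
    y q₀ * ∏ q ∈ Finset.univ.erase q₀, (x q₀ - x q) =
      ∑ i ∈ Finset.range (Fintype.card ι),
        (∑ m ∈ Finset.Icc (i + 1) (Fintype.card ι),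
          (Lagrange.nodal Finset.univ x).coeff m * ∑ q, y q * x q ^ (m - (i + 1))) *
            x q₀ ^ i := by
  have h1 : y q₀ * ∏ q ∈ Finset.univ.erase q₀, (x q₀ - x q) =
      ∑ q, y q * eval (x q₀) (Lagrange.nodal (Finset.univ.erase q) x) := by
    rw [Finset.sum_eq_single q₀]
    · rw [Lagrange.eval_nodal]
    · intro q _ hq
      rw [Lagrange.eval_nodal_at_node (Finset.mem_erase.2 ⟨hq.symm, Finset.mem_univ _⟩),
        mul_zero]
    · intro hq
      exact absurd (Finset.mem_univ _) hq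
  rw [h1]
  simp_rw [eval_nodal_erase_eq_sum, Finset.mul_sum, Finset.sum_mul, Finset.mul_sum]
  rw [Finset.sum_comm]
  refine Finset.sum_congr rfl fun i _ => ?_
  rw [Finset.sum_comm]
  refine Finset.sum_congr rfl fun m _ => ?_
  refine Finset.sum_congr rfl fun q _ => ?_
  ring

end Fermat.Agent.S23.Lagrange

namespace Fermat.Agent.S23

open UpperHalfPlane
open scoped MatrixGroups ModularForm Manifold

variable {𝒢 : Subgroup (GL (Fin 2) ℝ)} [𝒢.IsArithmetic] {k w : ℤ} {F : Type*} [FunLike F ℍ ℂ]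

omit [𝒢.IsArithmetic] in
/-- The conjugate attached to the trivial coset is the form itself. -/
theorem Lagrange.quotientFunc_mk_one [SlashInvariantFormClass F 𝒢 w] (h : F) (τ : ℍ) :
    SlashInvariantForm.quotientFunc h (QuotientGroup.mk 1 : Q 𝒢) τ = h τ := by
  have h1 : SlashInvariantForm.quotientFunc h (QuotientGroup.mk 1 : Q 𝒢) =
      (h : ℍ → ℂ) ∣[w] ((1 : ↥𝒮ℒ) : GL (Fin 2) ℝ)⁻¹ := rfl
  rw [h1]
  simp

/-- The coefficients of the characteristic polynomial, as coefficients of the nodal polynomial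
of the conjugates. -/
theorem Lagrange.coeff_nodal_quotientFunc [DecidableEq (Q 𝒢)] [SlashInvariantFormClass F 𝒢 w]
    (h : F) (τ : ℍ) {m : ℕ} (hm : m ≤ idx 𝒢) :
    (Lagrange.nodal Finset.univ
      (fun q : Q 𝒢 => SlashInvariantForm.quotientFunc h q τ)).coeff m =
      charCoeff h (idx 𝒢 - m) τ := by
  rw [Lagrange.nodal_eq, prod_X_sub_C_quotientFunc, Polynomial.finsetSum_coeff]
  simp_rw [Polynomial.coeff_C_mul, Polynomial.coeff_X_pow]
  rw [Finset.sum_eq_single (idx 𝒢 - m)]
  · rw [if_pos (by omega), mul_one]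
  · intro i hi hne
    rw [if_neg (by have := Finset.mem_range.1 hi; omega), mul_zero]
  · intro hh
    exact absurd (Finset.mem_range.2 (by omega)) hh

/-- The conjugates of `f * h ^ j` are the corresponding products of conjugates. -/
theorem Lagrange.quotientFunc_mul_pow [𝒢.HasDetOne] (f : ModularForm 𝒢 k) (h : ModularForm 𝒢 w)
    (j : ℕ) (q : Q 𝒢) (τ : ℍ) :
    SlashInvariantForm.quotientFunc (f.mul (h.pow j)) q τ =
      SlashInvariantForm.quotientFunc f q τ * SlashInvariantForm.quotientFunc h q τ ^ j := by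
  induction q using Quotient.inductionOn with
  | h r =>
    obtain ⟨γ, hγ⟩ := inv_mem r.2
    simp only [SlashInvariantForm.quotientFunc_mk]
    rw [← hγ]
    simp only [ModularForm.coe_mul, ModularForm.coe_pow]
    change ((⇑f * ⇑h ^ j) ∣[k + ↑j * w] γ) τ = (⇑f ∣[k] γ) τ * (⇑h ∣[w] γ) τ ^ j
    simp only [ModularForm.SL_slash_apply, Pi.mul_apply, Pi.pow_apply]
    rw [neg_add, zpow_add₀ (denom_ne_zero _ _), mul_pow, ← zpow_natCast (denom _ _ ^ (-w)),
      ← zpow_mul, show -(↑j * w) = -w * (j : ℤ) by ring]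
    ring

/-- The different is the derivative of the characteristic polynomial evaluated at `h`. -/
theorem diffFun_eq_sum [SlashInvariantFormClass F 𝒢 w] (h : F) (τ : ℍ) :
    diffFun h τ = ∑ i ∈ Finset.range (idx 𝒢),
      ((idx 𝒢 - i : ℕ) : ℂ) * charCoeff h i τ * h τ ^ (idx 𝒢 - i - 1) := by
  classical
  have h1 : diffFun h τ = Polynomial.eval (h τ) (Polynomial.derivative
      (Lagrange.nodal Finset.univ (fun q : Q 𝒢 => SlashInvariantForm.quotientFunc h q τ))) := by
    have h2 := Lagrange.eval_nodal_derivative_eval_node_eq (s := Finset.univ)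
      (v := fun q : Q 𝒢 => SlashInvariantForm.quotientFunc h q τ)
      (Finset.mem_univ (QuotientGroup.mk 1 : Q 𝒢))
    simp only [Lagrange.quotientFunc_mk_one] at h2
    rw [h2, Lagrange.eval_nodal, diffFun_apply]
  rw [h1, Lagrange.nodal_eq, prod_X_sub_C_quotientFunc, Polynomial.derivative_sum,
    Polynomial.eval_finsetSum, Finset.sum_range_succ]
  simp only [Polynomial.derivative_C_mul, Polynomial.derivative_X_pow, Polynomial.eval_mul,
    Polynomial.eval_C, Polynomial.eval_pow, Polynomial.eval_X, Nat.sub_self, Nat.cast_zero,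
    mul_zero, zero_mul, add_zero]
  refine Finset.sum_congr rfl fun i _ => ?_
  ring

/-- Lagrange interpolation. -/
theorem lagrange [𝒢.HasDetOne] (f : ModularForm 𝒢 k) (h : ModularForm 𝒢 w) :
    ∃ g : ℕ → ℍ → ℂ, (∀ i : ℕ, IsMF 𝒮ℒ (k + w * ((idx 𝒢 : ℤ) - 1 - (i : ℤ))) (g i)) ∧
      ∀ τ, f τ * diffFun h τ = ∑ i ∈ Finset.range (idx 𝒢), g i τ * h τ ^ i := by
  classical
  refine ⟨fun i => ∑ m ∈ Finset.Icc (i + 1) (idx 𝒢), charCoeff h (idx 𝒢 - m) *
    ⇑(ModularForm.trace 𝒮ℒ (f.mul (h.pow (m - (i + 1))))), fun i => ?_, fun τ => ?_⟩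
  · refine IsMF.sum _ fun m hm => ?_
    have hm' := Finset.mem_Icc.1 hm
    refine ((charCoeff_isMF h (idx 𝒢 - m)).mul (IsMF.coe _)).congr_weight ?_
    push_cast [Nat.cast_sub hm'.2, Nat.cast_sub hm'.1]
    ring
  · have h1 := Lagrange.lagrange_identity
      (fun q : Q 𝒢 => SlashInvariantForm.quotientFunc h q τ)
      (fun q : Q 𝒢 => SlashInvariantForm.quotientFunc f q τ) (QuotientGroup.mk 1)
    simp only [Lagrange.quotientFunc_mk_one] at h1
    rw [diffFun_apply, h1]
    refine Finset.sum_congr rfl fun i _ => ?_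
    congr 1
    simp only [Finset.sum_apply, Pi.mul_apply, ModularForm.coe_trace]
    refine Finset.sum_congr rfl fun m hm => ?_
    have hm' := Finset.mem_Icc.1 hm
    rw [Lagrange.coeff_nodal_quotientFunc h τ hm'.2]
    congr 1
    refine Finset.sum_congr rfl fun q _ => ?_
    rw [Lagrange.quotientFunc_mul_pow]

end Fermat.Agent.S23
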