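/-
Level one input for S23: integrality of the q-expansions of E₄, E₆, Δ and the fact that every
level one modular form is a polynomial in E₄ and E₆.
-/
import Mathlib

set_option autoImplicit false

namespace Fermat.Agent.S23.LevelOne

open UpperHalfPlane EisensteinSeries ModularForm
open scoped MatrixGroups ModularForm Manifold

/-! ### Integral q-expansions of `E₄`, `E₆` and `Δ` -/

/-- The integral q-expansion of `E₄`, namely `1 + 240 ∑ σ₃(n) qⁿ`. -/
noncomputable def E4Z : PowerSeries ℤ :=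
  PowerSeries.mk fun n => if n = 0 then 1 else 240 * (ArithmeticFunction.sigma 3 n : ℤ)

/-- The integral q-expansion of `E₆`, namely `1 - 504 ∑ σ₅(n) qⁿ`. -/
noncomputable def E6Z : PowerSeries ℤ :=
  PowerSeries.mk fun n => if n = 0 then 1 else -504 * (ArithmeticFunction.sigma 5 n : ℤ)

theorem bernoulli_four : bernoulli 4 = -1 / 30 := by
  rw [bernoulli_eq_bernoulli'_of_ne_one (by norm_num), bernoulli'_four]

theorem bernoulli_six : bernoulli 6 = 1 / 42 := by
  have h5 : bernoulli' 5 = 0 := bernoulli'_eq_zero_of_odd (by decide) (by norm_num)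
  have c2 : Nat.choose 6 2 = 15 := by decide
  have c3 : Nat.choose 6 3 = 20 := by decide
  have c4 : Nat.choose 6 4 = 15 := by decide
  rw [bernoulli_eq_bernoulli'_of_ne_one (by norm_num), bernoulli'_def]
  norm_num [Finset.sum_range_succ, Finset.sum_range_zero, h5, c2, c3, c4]

theorem E4Z_map : E4Z.map (Int.castRingHom ℂ) = qExpansion 1 E₄ := by
  ext m
  rw [PowerSeries.coeff_map, E_qExpansion_coeff _ ⟨2, rfl⟩, bernoulli_four]
  simp only [E4Z, PowerSeries.coeff_mk]
  split_ifs <;> norm_num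

theorem E6Z_map : E6Z.map (Int.castRingHom ℂ) = qExpansion 1 E₆ := by
  ext m
  rw [PowerSeries.coeff_map, E_qExpansion_coeff _ ⟨3, rfl⟩, bernoulli_six]
  simp only [E6Z, PowerSeries.coeff_mk]
  split_ifs <;> norm_num

theorem E4Z_coeff_zero : PowerSeries.coeff 0 E4Z = 1 := by
  simp [E4Z]

theorem E6Z_coeff_zero : PowerSeries.coeff 0 E6Z = 1 := by
  simp [E6Z]

/-- `∑ σ₃(n) qⁿ`. -/
noncomputable def sigA : PowerSeries ℤ :=
  PowerSeries.mk fun n => (ArithmeticFunction.sigma 3 n : ℤ)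

/-- `∑ σ₅(n) qⁿ`. -/
noncomputable def sigB : PowerSeries ℤ :=
  PowerSeries.mk fun n => (ArithmeticFunction.sigma 5 n : ℤ)

/-- `∑ (5σ₃(n) + 7σ₅(n))/12 qⁿ` (the division is exact, see `twelve_dvd_sigma`). -/
noncomputable def sigC : PowerSeries ℤ :=
  PowerSeries.mk fun n =>
    (5 * (ArithmeticFunction.sigma 3 n : ℤ) + 7 * (ArithmeticFunction.sigma 5 n : ℤ)) / 12

theorem twelve_dvd_pow (d : ℤ) : (12 : ℤ) ∣ 5 * d ^ 3 + 7 * d ^ 5 := by
  have h : ((5 * d ^ 3 + 7 * d ^ 5 : ℤ) : ZMod 12) = 0 := by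
    push_cast
    generalize (d : ZMod 12) = x
    revert x
    decide
  exact (ZMod.intCast_zmod_eq_zero_iff_dvd _ 12).mp h

theorem twelve_dvd_sigma (n : ℕ) :
    (12 : ℤ) ∣ 5 * (ArithmeticFunction.sigma 3 n : ℤ) + 7 * (ArithmeticFunction.sigma 5 n : ℤ) := by
  rw [ArithmeticFunction.sigma_apply, ArithmeticFunction.sigma_apply]
  push_cast
  rw [Finset.mul_sum, Finset.mul_sum, ← Finset.sum_add_distrib]
  exact Finset.dvd_sum fun d _ => twelve_dvd_pow d

theorem coeff_intCast_mul (k : ℤ) (n : ℕ) (f : PowerSeries ℤ) :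
    PowerSeries.coeff n ((k : PowerSeries ℤ) * f) = k * PowerSeries.coeff n f := by
  rw [show (k : PowerSeries ℤ) = PowerSeries.C k by simp, PowerSeries.coeff_C_mul]

theorem E4Z_eq : E4Z = 1 + 240 * sigA := by
  ext n
  have h := coeff_intCast_mul 240 n sigA
  rw [map_add, show (240 : PowerSeries ℤ) = ((240 : ℤ) : PowerSeries ℤ) by norm_cast, h]
  simp only [E4Z, sigA, PowerSeries.coeff_mk, PowerSeries.coeff_one]
  split_ifs with h
  · subst h; simp
  · simp

theorem E6Z_eq : E6Z = 1 - 504 * sigB := by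
  ext n
  have h := coeff_intCast_mul 504 n sigB
  rw [map_sub, show (504 : PowerSeries ℤ) = ((504 : ℤ) : PowerSeries ℤ) by norm_cast, h]
  simp only [E6Z, sigB, PowerSeries.coeff_mk, PowerSeries.coeff_one]
  split_ifs with h
  · subst h; simp
  · simp

theorem sigC_eq : 12 * sigC = 5 * sigA + 7 * sigB := by
  ext n
  rw [map_add, show (12 : PowerSeries ℤ) = ((12 : ℤ) : PowerSeries ℤ) by norm_cast,
    show (5 : PowerSeries ℤ) = ((5 : ℤ) : PowerSeries ℤ) by norm_cast,
    show (7 : PowerSeries ℤ) = ((7 : ℤ) : PowerSeries ℤ) by norm_cast,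
    coeff_intCast_mul, coeff_intCast_mul, coeff_intCast_mul]
  simp only [sigA, sigB, sigC, PowerSeries.coeff_mk]
  exact Int.mul_ediv_cancel' (twelve_dvd_sigma n)

/-- The integral q-expansion of `Δ`: the unique power series with
`1728 * DeltaZ = E4Z ^ 3 - E6Z ^ 2`. -/
noncomputable def DeltaZ : PowerSeries ℤ :=
  sigC + 100 * sigA ^ 2 + 8000 * sigA ^ 3 - 147 * sigB ^ 2

theorem DeltaZ_eq : 1728 * DeltaZ = E4Z ^ 3 - E6Z ^ 2 := by
  rw [E4Z_eq, E6Z_eq, DeltaZ]
  linear_combination 144 * sigC_eq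

theorem ofNat_smul_eq (x : PowerSeries ℂ) : (1728 : ℂ) • x = (1728 : PowerSeries ℂ) * x := by
  rw [PowerSeries.smul_eq_C_mul, map_ofNat]

theorem DeltaZ_map :
    DeltaZ.map (Int.castRingHom ℂ) = qExpansion 1 ModularForm.discriminant := by
  have h1 : (1728 : ℂ) • DeltaZ.map (Int.castRingHom ℂ) =
      qExpansion 1 E₄ ^ 3 - qExpansion 1 E₆ ^ 2 := by
    have := congrArg (PowerSeries.map (Int.castRingHom ℂ)) DeltaZ_eq
    rw [map_mul, map_sub, map_pow, map_pow, E4Z_map, E6Z_map, map_ofNat] at this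
    rw [ofNat_smul_eq, this]
  have h2 : (1728 : ℂ) • (⇑CuspForm.discriminant : ℍ → ℂ) =
      ⇑(ModularForm.mcast (by decide) (E₄.pow 3) : ModularForm 𝒮ℒ 12) -
        ⇑(ModularForm.mcast (by decide) (E₆.pow 2) : ModularForm 𝒮ℒ 12) := by
    ext z
    simp only [CuspForm.coe_discriminant, Pi.smul_apply, smul_eq_mul, Pi.sub_apply,
      ModularForm.coe_mcast, ModularForm.coe_pow, Pi.pow_apply,
      ModularForm.discriminant_eq_E₄_cube_sub_E₆_sq z]
    ring
  have h3 : (1728 : ℂ) • qExpansion 1 ModularForm.discriminant =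
      qExpansion 1 E₄ ^ 3 - qExpansion 1 E₆ ^ 2 := by
    have := congrArg (qExpansion 1) h2
    rw [ModularForm.qExpansion_smul one_pos one_mem_strictPeriods_SL,
      ModularForm.qExpansion_sub one_pos one_mem_strictPeriods_SL,
      ModularForm.qExpansion_mcast, ModularForm.qExpansion_mcast,
      ModularForm.qExpansion_pow one_pos one_mem_strictPeriods_SL,
      ModularForm.qExpansion_pow one_pos one_mem_strictPeriods_SL] at this
    exact this
  exact smul_right_injective _ (by norm_num : (1728 : ℂ) ≠ 0) (h1.trans h3.symm)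

theorem DeltaZ_coeff_zero : PowerSeries.coeff 0 DeltaZ = 0 := by
  have h := congrArg (PowerSeries.coeff 0) DeltaZ_map
  rw [PowerSeries.coeff_map] at h
  have h0 : PowerSeries.coeff 0 (qExpansion 1 ModularForm.discriminant) = 0 :=
    CuspFormClass.qExpansion_coeff_zero CuspForm.discriminant one_pos one_mem_strictPeriods_SL
  rw [h0] at h
  simpa using h

theorem DeltaZ_coeff_one : PowerSeries.coeff 1 DeltaZ = 1 := by
  have h := congrArg (PowerSeries.coeff 1) DeltaZ_map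
  rw [PowerSeries.coeff_map, ModularForm.discriminant_qExpansion_coeff_one] at h
  simpa using h

/-! ### Level one forms are polynomials in `E₄` and `E₆` -/

/-- The monomial function `E₄ ^ a * E₆ ^ b`. -/
noncomputable def mono (p : ℕ × ℕ) : ℍ → ℂ := (⇑E₄ : ℍ → ℂ) ^ p.1 * (⇑E₆ : ℍ → ℂ) ^ p.2

/-- Exponent pairs `(a, b)` of weight `w`, i.e. with `4 * a + 6 * b = w`. -/
def idx (w : ℤ) : Set (ℕ × ℕ) := {p | 4 * (p.1 : ℤ) + 6 * (p.2 : ℤ) = w}

/-- The monomial `E₄ ^ a * E₆ ^ b` as a modular form of weight `w = 4a + 6b`. -/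
noncomputable def monoForm (w : ℤ) (p : ℕ × ℕ) (h : 4 * (p.1 : ℤ) + 6 * (p.2 : ℤ) = w) :
    ModularForm 𝒮ℒ w :=
  ModularForm.mcast (by rw [← h]; ring) ((E₄.pow p.1).mul (E₆.pow p.2))

theorem coe_monoForm (w : ℤ) (p : ℕ × ℕ) (h : 4 * (p.1 : ℤ) + 6 * (p.2 : ℤ) = w) :
    (⇑(monoForm w p h) : ℍ → ℂ) = mono p := by
  simp only [monoForm, mono, ModularForm.coe_mcast, ModularForm.coe_mul, ModularForm.coe_pow]

theorem qExpansion_monoForm (w : ℤ) (p : ℕ × ℕ) (h : 4 * (p.1 : ℤ) + 6 * (p.2 : ℤ) = w) :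
    qExpansion 1 (monoForm w p h) = qExpansion 1 E₄ ^ p.1 * qExpansion 1 E₆ ^ p.2 := by
  rw [monoForm, ModularForm.qExpansion_mcast,
    ModularForm.qExpansion_mul one_pos one_mem_strictPeriods_SL,
    ModularForm.qExpansion_pow one_pos one_mem_strictPeriods_SL,
    ModularForm.qExpansion_pow one_pos one_mem_strictPeriods_SL]

/-- The q-expansion of a monomial `E₄ ^ a * E₆ ^ b` is integral. -/
theorem qExpansion_monoForm_eq_map (w : ℤ) (p : ℕ × ℕ)
    (h : 4 * (p.1 : ℤ) + 6 * (p.2 : ℤ) = w) :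
    qExpansion 1 (monoForm w p h) = (E4Z ^ p.1 * E6Z ^ p.2).map (Int.castRingHom ℂ) := by
  rw [qExpansion_monoForm, map_mul, map_pow, map_pow, E4Z_map, E6Z_map]

theorem qExpansion_monoForm_coeff_zero (w : ℤ) (p : ℕ × ℕ)
    (h : 4 * (p.1 : ℤ) + 6 * (p.2 : ℤ) = w) :
    (qExpansion 1 (monoForm w p h)).coeff 0 = 1 := by
  have h4 : PowerSeries.constantCoeff (qExpansion 1 E₄) = 1 := by
    rw [← PowerSeries.coeff_zero_eq_constantCoeff_apply]
    exact E_qExpansion_coeff_zero _ ⟨2, rfl⟩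
  have h6 : PowerSeries.constantCoeff (qExpansion 1 E₆) = 1 := by
    rw [← PowerSeries.coeff_zero_eq_constantCoeff_apply]
    exact E_qExpansion_coeff_zero _ ⟨3, rfl⟩
  rw [qExpansion_monoForm, PowerSeries.coeff_zero_eq_constantCoeff_apply, map_mul, map_pow,
    map_pow, h4, h6, one_pow, one_pow, one_mul]

theorem disc_mul_mono (p : ℕ × ℕ) :
    ModularForm.discriminant * mono p =
      (1 / 1728 : ℂ) • mono (p.1 + 3, p.2) - (1 / 1728 : ℂ) • mono (p.1, p.2 + 2) := by
  ext z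
  simp only [mono, Pi.mul_apply, Pi.pow_apply, Pi.sub_apply, Pi.smul_apply, smul_eq_mul,
    ModularForm.discriminant_eq_E₄_cube_sub_E₆_sq z]
  ring

theorem disc_mul_mem (w : ℤ) {F : ℍ → ℂ}
    (hF : F ∈ Submodule.span ℂ (mono '' idx (w - 12))) :
    ModularForm.discriminant * F ∈ Submodule.span ℂ (mono '' idx w) := by
  induction hF using Submodule.span_induction with
  | mem x hx =>
    obtain ⟨p, hp, rfl⟩ := hx
    rw [disc_mul_mono]
    have hp' : 4 * (p.1 : ℤ) + 6 * (p.2 : ℤ) = w - 12 := hp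
    refine Submodule.sub_mem _ (Submodule.smul_mem _ _ (Submodule.subset_span ⟨_, ?_, rfl⟩))
      (Submodule.smul_mem _ _ (Submodule.subset_span ⟨_, ?_, rfl⟩))
    · change 4 * ((p.1 + 3 : ℕ) : ℤ) + 6 * (p.2 : ℤ) = w
      push_cast; omega
    · change 4 * (p.1 : ℤ) + 6 * ((p.2 + 2 : ℕ) : ℤ) = w
      push_cast; omega
  | zero => rw [mul_zero]; exact Submodule.zero_mem _
  | add x y _ _ hx hy => rw [mul_add]; exact Submodule.add_mem _ hx hy
  | smul c x _ hx => rw [mul_smul_comm]; exact Submodule.smul_mem _ c hx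

theorem mem_span_aux : ∀ (n : ℕ) (w : ℤ), w < n → ∀ G : ModularForm 𝒮ℒ w,
    (⇑G : ℍ → ℂ) ∈ Submodule.span ℂ (mono '' idx w) := by
  intro n
  induction n with
  | zero =>
    intro w hw G
    rw [ModularFormClass.levelOne_neg_weight_eq_zero (by exact_mod_cast hw) G]
    exact Submodule.zero_mem _
  | succ n ih =>
    intro w hw G
    by_cases hwn : w < n
    · exact ih w hwn G
    have hw0 : 0 ≤ w := by push_cast at hw; omega
    rcases Int.even_or_odd w with hev | hodd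
    swap
    · rw [ModularForm.levelOne_odd_weight_eq_zero hodd G]
      exact Submodule.zero_mem _
    by_cases h0 : w = 0
    · subst h0
      obtain ⟨c, hc⟩ := ModularFormClass.levelOne_weight_zero_const G
      have : (⇑G : ℍ → ℂ) = c • mono (0, 0) := by
        rw [hc]
        ext z
        simp [mono]
      rw [this]
      exact Submodule.smul_mem _ c (Submodule.subset_span ⟨(0, 0), by simp [idx], rfl⟩)
    by_cases h2 : w = 2
    · subst h2
      rw [rank_zero_iff_forall_zero.mp ModularForm.levelOne_weight_two_rank_zero G]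
      exact Submodule.zero_mem _
    obtain ⟨a, b, hab⟩ : ∃ a b : ℕ, 4 * (a : ℤ) + 6 * (b : ℤ) = w := by
      obtain ⟨m, hm⟩ := hev
      by_cases h4 : w % 4 = 0
      · exact ⟨(w / 4).toNat, 0, by omega⟩
      · exact ⟨((w - 6) / 4).toNat, 1, by omega⟩
    have hM := qExpansion_monoForm_coeff_zero w (a, b) hab
    have hc := ModularForm.sub_smul_isCuspForm G (monoForm w (a, b) hab) hM
    rw [ModularForm.isCuspForm_iff_coeffZero_eq_zero] at hc
    have hG1 := ih (w - 12) (by push_cast at hw; omega)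
      (CuspForm.discriminantEquiv (ModularForm.toCuspForm _ hc))
    have hmul := ModularForm.discriminant_mul_discriminantEquiv (ModularForm.toCuspForm _ hc)
    have hG : (⇑G : ℍ → ℂ) = ModularForm.discriminant *
        ⇑(CuspForm.discriminantEquiv (ModularForm.toCuspForm _ hc)) +
        (qExpansion 1 G).coeff 0 • mono (a, b) := by
      rw [hmul, ← coe_monoForm w (a, b) hab]
      ext z
      simp
    rw [hG]
    exact Submodule.add_mem _ (disc_mul_mem w hG1)
      (Submodule.smul_mem _ _ (Submodule.subset_span ⟨(a, b), hab, rfl⟩))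

/-- Every level one modular form of weight `w` lies in the span of the monomials
`E₄ ^ a * E₆ ^ b` with `4 * a + 6 * b = w`. -/
theorem mem_span (w : ℤ) (G : ModularForm 𝒮ℒ w) :
    (⇑G : ℍ → ℂ) ∈ Submodule.span ℂ (mono '' idx w) :=
  mem_span_aux (w.toNat + 1) w (by push_cast; omega) G

theorem span_finset (w : ℤ) (G : ModularForm 𝒮ℒ w) :
    ∃ (s : Finset (ℕ × ℕ)) (c : ℕ × ℕ → ℂ), (∀ p ∈ s, (4 * (p.1 : ℤ) + 6 * (p.2 : ℤ)) = w) ∧
      (⇑G : ℍ → ℂ) = ∑ p ∈ s, c p • ((⇑E₄ : ℍ → ℂ) ^ p.1 * (⇑E₆ : ℍ → ℂ) ^ p.2) := by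
  obtain ⟨l, hl, hlG⟩ := (Finsupp.mem_span_image_iff_linearCombination ℂ).mp (mem_span w G)
  refine ⟨l.support, ⇑l, fun p hp => hl hp, ?_⟩
  rw [← hlG, Finsupp.linearCombination_apply]
  rfl

/-- Bundled version of `span_finset`: every level one modular form is a linear combination of
the modular forms `monoForm w p`. -/
theorem eq_sum_monoForm (w : ℤ) (G : ModularForm 𝒮ℒ w) :
    ∃ (s : Finset (ℕ × ℕ)) (c : ℕ × ℕ → ℂ)
      (hs : ∀ p ∈ s, (4 * (p.1 : ℤ) + 6 * (p.2 : ℤ)) = w),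
      G = ∑ p ∈ s.attach, c p.1 • monoForm w p.1 (hs p.1 p.2) := by
  obtain ⟨s, c, hs, hG⟩ := span_finset w G
  refine ⟨s, c, hs, ?_⟩
  apply DFunLike.coe_injective
  rw [hG, ← Finset.sum_attach, FunLike.coe_sum]
  refine Finset.sum_congr rfl fun p _ => ?_
  rw [FunLike.coe_smul, coe_monoForm]
  rfl

/-! ### Conjugating q-expansion coefficients -/

/-- The q-expansion as a linear map on level one forms of weight `w`. -/
noncomputable def qLin (w : ℤ) : ModularForm 𝒮ℒ w →ₗ[ℂ] PowerSeries ℂ where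
  toFun f := qExpansion 1 f
  map_add' f g := ModularForm.qExpansion_add one_pos one_mem_strictPeriods_SL f g
  map_smul' c f := ModularForm.qExpansion_smul one_pos one_mem_strictPeriods_SL c f

theorem qLin_apply (w : ℤ) (f : ModularForm 𝒮ℒ w) : qLin w f = qExpansion 1 f := rfl

theorem map_map_int (τ : ℂ →+* ℂ) (x : PowerSeries ℤ) :
    (x.map (Int.castRingHom ℂ)).map τ = x.map (Int.castRingHom ℂ) := by
  ext n
  simp [PowerSeries.coeff_map]

theorem map_smul_ps (τ : ℂ →+* ℂ) (c : ℂ) (x : PowerSeries ℂ) :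
    (c • x).map τ = τ c • x.map τ := by
  rw [PowerSeries.smul_eq_C_mul, map_mul, PowerSeries.map_C, ← PowerSeries.smul_eq_C_mul]

theorem map_qExpansion_monoForm (τ : ℂ →+* ℂ) (w : ℤ) (p : ℕ × ℕ)
    (h : 4 * (p.1 : ℤ) + 6 * (p.2 : ℤ) = w) :
    (qExpansion 1 (monoForm w p h)).map τ = qExpansion 1 (monoForm w p h) := by
  rw [qExpansion_monoForm_eq_map, map_map_int]

theorem conj_aux (w : ℤ) (G : ModularForm 𝒮ℒ w) (τ : ℂ →+* ℂ) :
    ∃ G' : ModularForm 𝒮ℒ w, qExpansion 1 G' = (qExpansion 1 G).map τ := by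
  obtain ⟨s, c, hs, hG'⟩ := eq_sum_monoForm w G
  refine ⟨∑ p ∈ s.attach, τ (c p.1) • monoForm w p.1 (hs p.1 p.2), ?_⟩
  rw [← qLin_apply, ← qLin_apply, hG', map_sum, map_sum, map_sum]
  refine Finset.sum_congr rfl fun p _ => ?_
  rw [map_smul, map_smul, map_smul_ps, qLin_apply, map_qExpansion_monoForm]

end Fermat.Agent.S23.LevelOne

namespace Fermat.Agent.S23

open UpperHalfPlane EisensteinSeries ModularForm
open scoped MatrixGroups ModularForm Manifold

/-- The q-expansion of `E₄` has integer coefficients. -/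
theorem exists_E4Z : ∃ s : PowerSeries ℤ, s.map (Int.castRingHom ℂ) = qExpansion 1 E₄ := by
  exact ⟨LevelOne.E4Z, LevelOne.E4Z_map⟩

/-- The q-expansion of `E₆` has integer coefficients. -/
theorem exists_E6Z : ∃ s : PowerSeries ℤ, s.map (Int.castRingHom ℂ) = qExpansion 1 E₆ := by
  exact ⟨LevelOne.E6Z, LevelOne.E6Z_map⟩

/-- The q-expansion of `Δ` has integer coefficients, and starts with `q`. -/
theorem exists_DeltaZ : ∃ s : PowerSeries ℤ,
    s.map (Int.castRingHom ℂ) = qExpansion 1 ModularForm.discriminant ∧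
    PowerSeries.coeff 0 s = 0 ∧ PowerSeries.coeff 1 s = 1 := by
  exact ⟨LevelOne.DeltaZ, LevelOne.DeltaZ_map, LevelOne.DeltaZ_coeff_zero,
    LevelOne.DeltaZ_coeff_one⟩

/-- Every level one modular form of weight `w` is a linear combination of monomials
`E₄ ^ a * E₆ ^ b` with `4 * a + 6 * b = w`. -/
theorem levelOne_span (w : ℤ) (G : ModularForm 𝒮ℒ w) :
    ∃ (s : Finset (ℕ × ℕ)) (c : ℕ × ℕ → ℂ), (∀ p ∈ s, (4 * (p.1 : ℤ) + 6 * (p.2 : ℤ)) = w) ∧
      (⇑G : ℍ → ℂ) = ∑ p ∈ s, c p • ((⇑E₄ : ℍ → ℂ) ^ p.1 * (⇑E₆ : ℍ → ℂ) ^ p.2) := by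
  exact LevelOne.span_finset w G

/-- Level one modular forms are stable under conjugating q-expansion coefficients by a ring
endomorphism of `ℂ`. -/
theorem levelOne_conj (w : ℤ) (G : ModularForm 𝒮ℒ w) (σ : ℂ →+* ℂ) :
    ∃ G' : ModularForm 𝒮ℒ w, qExpansion 1 G' = (qExpansion 1 G).map σ := by
  exact LevelOne.conj_aux w G σ

end Fermat.Agent.S23
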