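/-
Glue for S23: the modular form `Δ(N τ)` on `Γ₀(N)`, its q-expansions, its different.
-/
import Fermat.Agent.S23.LevelOne
import Fermat.Agent.S23.Lagrange
import Fermat.Agent.S23.DeltaN
import Fermat.Agent.S23.DeltaAff
import Fermat.Agent.S23.DeltaExp

set_option autoImplicit false

namespace Fermat.Agent.S23

open UpperHalfPlane
open scoped MatrixGroups ModularForm Manifold Real

/-- The expansions of the functions `Δ((a τ + b) / d)`, `a d = N`, in the parameter `q_N`. -/
theorem DeltaAff_expansion (N : ℕ) [NeZero N] (a d b : ℕ) (hN : a * d = N) (ha : 0 < a) :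
    IsNice (N : ℝ) (DeltaAff a d b) ∧
      qExpansion (N : ℝ) (DeltaAff a d b) =
        PowerSeries.mk (fun n => if a ^ 2 ∣ n then
          (qExpansion 1 ModularForm.discriminant).coeff (n / a ^ 2) *
            Complex.exp (2 * π * Complex.I / (N : ℂ)) ^ (a * b * (n / a ^ 2))
          else 0) := by
  have hd : 0 < d := by
    rcases Nat.eq_zero_or_pos d with h | h
    · subst h
      exact absurd hN.symm (by simpa using NeZero.ne N)
    · exact h
  subst hN
  exact ⟨DeltaAff_isNice a d b ha hd, qExpansion_DeltaAff a d b ha hd⟩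

theorem DeltaAff_self_one_zero (N : ℕ) : DeltaAff N 1 0 = DeltaN N := by
  ext τ
  simp [DeltaAff, DeltaN]

/-- `Δ(N τ)` is nice of period one. -/
theorem DeltaN_isNice_one (N : ℕ) [NeZero N] : IsNice 1 (DeltaN N) :=
  (DeltaN_isMF N).isNice_one

theorem DeltaN_isNice (N : ℕ) [NeZero N] : IsNice (N : ℝ) (DeltaN N) := by
  simpa using (DeltaN_isNice_one N).nat_mul N

/-- The expansion of `Δ(N τ)` in `q_N`. -/
theorem qExpansion_N_DeltaN (N : ℕ) [NeZero N] :
    qExpansion (N : ℝ) (DeltaN N) =
      PowerSeries.expand (N * N) (Nat.mul_ne_zero (NeZero.ne N) (NeZero.ne N))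
        (qExpansion 1 ModularForm.discriminant) := by
  have h := (DeltaAff_expansion N N 1 0 (mul_one N) (Nat.pos_of_ne_zero (NeZero.ne N))).2
  rw [DeltaAff_self_one_zero] at h
  rw [h]
  ext n
  rw [PowerSeries.coeff_mk, PowerSeries.coeff_expand, pow_two]
  simp

/-- The expansion of `Δ(N τ)` in `q`. -/
theorem qExpansion_one_DeltaN (N : ℕ) [NeZero N] :
    qExpansion 1 (DeltaN N) =
      PowerSeries.expand N (NeZero.ne N) (qExpansion 1 ModularForm.discriminant) := by
  have h1 := qExpansion_nat_mul one_pos (DeltaN_isNice_one N) (NeZero.ne N)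
  rw [mul_one, qExpansion_N_DeltaN,
    PowerSeries.expand_mul N (NeZero.ne N) N (NeZero.ne N)] at h1
  ext n
  have := congrArg (PowerSeries.coeff (N * n)) h1
  rw [PowerSeries.coeff_expand_mul, PowerSeries.coeff_expand_mul] at this
  exact this.symm

/-- The different of a modular form on `Γ₀(N)`, as a function. -/
theorem diffFun_eq (N : ℕ) [NeZero N] {w : ℤ} (h : ModularForm (Gam N) w) :
    diffFun h = ∑ i ∈ Finset.range (idx (Gam N)),
      ((idx (Gam N) - i : ℕ) : ℂ) • (charCoeff h i * (⇑h) ^ (idx (Gam N) - i - 1)) := by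
  ext τ
  rw [diffFun_eq_sum h τ, Finset.sum_apply]
  refine Finset.sum_congr rfl fun i _ => ?_
  simp [mul_assoc]

/-- The different of a modular form of weight `w` on `Γ₀(N)` is a modular form of weight
`w * (idx - 1)`. -/
theorem diffFun_isMF (N : ℕ) [NeZero N] {w : ℤ} (h : ModularForm (Gam N) w) :
    IsMF (Gam N) (w * ((idx (Gam N) : ℤ) - 1)) (diffFun h) := by
  rw [diffFun_eq]
  refine IsMF.sum _ fun i hi => ?_
  have hi' : i < idx (Gam N) := Finset.mem_range.mp hi
  refine IsMF.smul _ ?_
  refine ((charCoeff_isMF h i).of_levelOne.mul ((IsMF.coe h).pow (idx (Gam N) - i - 1))).congr_weight ?_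
  have : ((idx (Gam N) - i - 1 : ℕ) : ℤ) = (idx (Gam N) : ℤ) - i - 1 := by omega
  rw [this]
  ring

/-- The q-expansion of the different of `Δ(N τ)` is invertible up to a power of `X`, the inverse
being a finite complex combination of integral power series. -/
theorem exists_inverse (N : ℕ) [NeZero N] (hN : ModularForm (Gam N) 12) (hcoe : ⇑hN = DeltaN N) :
    ∃ (r : ℕ) (L : Type) (_ : Fintype L) (ω : L → ℂ) (e : L → PowerSeries ℤ),
      qExpansion (N : ℝ) (diffFun hN) * ∑ l, ω l • (e l).map (Int.castRingHom ℂ) =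
        (PowerSeries.X : PowerSeries ℂ) ^ r := by
  obtain ⟨sΔ, hsΔ, h0, h1⟩ := exists_DeltaZ
  exact exists_inverse_qExpansion_diffFun N hN hcoe sΔ hsΔ h0 h1 (DeltaN_slash N)
    (DeltaAff_expansion N)

theorem diffFun_ne_zero (N : ℕ) [NeZero N] (hN : ModularForm (Gam N) 12) (hcoe : ⇑hN = DeltaN N) :
    diffFun hN ≠ 0 := by
  obtain ⟨r, L, _, ω, e, hW⟩ := exists_inverse N hN hcoe
  intro h0
  rw [h0, UpperHalfPlane.qExpansion_zero, zero_mul] at hW
  exact pow_ne_zero r PowerSeries.X_ne_zero hW.symm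

end Fermat.Agent.S23
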