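/-
Glue for S23: conjugating q-expansions by a ring endomorphism of `ℂ`.
-/
import Fermat.Agent.S23.Setup

set_option autoImplicit false

namespace Fermat.Agent.S23

open UpperHalfPlane
open scoped MatrixGroups ModularForm Manifold Real

/-- `F` and `F'` are nice functions of period one and the q-expansion of `F'` is the
`σ`-conjugate of the q-expansion of `F`. -/
def IsConj (σ : ℂ →+* ℂ) (F F' : ℍ → ℂ) : Prop :=
  IsNice 1 F ∧ IsNice 1 F' ∧ qExpansion 1 F' = (qExpansion 1 F).map σ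

namespace IsConj

variable {σ : ℂ →+* ℂ} {F F' G G' : ℍ → ℂ}

lemma zero : IsConj σ 0 0 :=
  ⟨IsNice.zero 1, IsNice.zero 1, by rw [UpperHalfPlane.qExpansion_zero, map_zero]⟩

lemma add (h : IsConj σ F F') (h' : IsConj σ G G') : IsConj σ (F + G) (F' + G') :=
  ⟨h.1.add h'.1, h.2.1.add h'.2.1, by
    rw [qExpansion_add one_pos h.2.1 h'.2.1, qExpansion_add one_pos h.1 h'.1, map_add,
      h.2.2, h'.2.2]⟩

lemma mul (h : IsConj σ F F') (h' : IsConj σ G G') : IsConj σ (F * G) (F' * G') :=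
  ⟨h.1.mul h'.1, h.2.1.mul h'.2.1, by
    rw [qExpansion_mul one_pos h.2.1 h'.2.1, qExpansion_mul one_pos h.1 h'.1, map_mul,
      h.2.2, h'.2.2]⟩

lemma pow (h : IsConj σ F F') (n : ℕ) : IsConj σ (F ^ n) (F' ^ n) :=
  ⟨h.1.pow n, h.2.1.pow n, by
    rw [qExpansion_pow one_pos h.2.1, qExpansion_pow one_pos h.1, map_pow, h.2.2]⟩

lemma smul (c : ℂ) (h : IsConj σ F F') : IsConj σ (c • F) (σ c • F') :=
  ⟨h.1.smul c, h.2.1.smul _, by
    rw [qExpansion_smul one_pos _ h.2.1, qExpansion_smul one_pos _ h.1, h.2.2,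
      PowerSeries.smul_eq_C_mul, PowerSeries.smul_eq_C_mul, map_mul, PowerSeries.map_C]⟩

lemma natCast_smul (n : ℕ) (h : IsConj σ F F') : IsConj σ ((n : ℂ) • F) ((n : ℂ) • F') := by
  have := h.smul (n : ℂ)
  rwa [map_natCast] at this

lemma sum {ι : Type*} (s : Finset ι) {F F' : ι → ℍ → ℂ} (h : ∀ i ∈ s, IsConj σ (F i) (F' i)) :
    IsConj σ (∑ i ∈ s, F i) (∑ i ∈ s, F' i) := by
  classical
  induction s using Finset.induction_on with
  | empty => simpa using zero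
  | insert a s ha ih =>
    rw [Finset.sum_insert ha, Finset.sum_insert ha]
    exact (h a (Finset.mem_insert_self a s)).add
      (ih fun i hi => h i (Finset.mem_insert_of_mem hi))

lemma eq_zero (h : IsConj σ F F') (hF : F = 0) : F' = 0 := by
  rw [← qExpansion_eq_zero_iff one_pos h.2.1, h.2.2, hF, UpperHalfPlane.qExpansion_zero, map_zero]

lemma eq_zero' (h : IsConj σ F F') (hF' : F' = 0) : F = 0 := by
  rw [← qExpansion_eq_zero_iff one_pos h.1]
  have h0 : (qExpansion 1 F).map σ = 0 := by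
    rw [← h.2.2, hF', UpperHalfPlane.qExpansion_zero]
  ext n
  have := congrArg (PowerSeries.coeff n) h0
  rw [PowerSeries.coeff_map, map_zero] at this
  rw [map_zero]
  exact (map_eq_zero σ).mp this

lemma congr_left (h : IsConj σ F F') (hFG : F = G) : IsConj σ G F' := hFG ▸ h

end IsConj

/-- Level one modular forms can be conjugated. -/
lemma IsConj.of_levelOne (σ : ℂ →+* ℂ) {w : ℤ} {F : ℍ → ℂ} (hF : IsMF 𝒮ℒ w F) :
    ∃ F' : ℍ → ℂ, IsMF 𝒮ℒ w F' ∧ IsConj σ F F' := by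
  obtain ⟨G, rfl⟩ := hF
  obtain ⟨G', hG'⟩ := levelOne_conj w G σ
  exact ⟨G', IsMF.coe G', (IsMF.coe G).isNice_one_of_levelOne,
    (IsMF.coe G').isNice_one_of_levelOne, hG'⟩

/-- `Δ(N τ)` is its own conjugate. -/
lemma IsConj.DeltaN (σ : ℂ →+* ℂ) (N : ℕ) [NeZero N] : IsConj σ (DeltaN N) (DeltaN N) := by
  refine ⟨DeltaN_isNice_one N, DeltaN_isNice_one N, ?_⟩
  obtain ⟨sΔ, hsΔ, -, -⟩ := exists_DeltaZ
  rw [qExpansion_one_DeltaN, ← hsΔ, PowerSeries.map_expand]
  congr 1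
  ext n
  simp

end Fermat.Agent.S23
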