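/-
Analytic part of the conjugation theorem for S23: a quotient `P / D` of modular forms on a finite
index subgroup of `SL(2, ℤ)` which satisfies a monic polynomial equation whose coefficients are
level one modular forms vanishing at `i∞` is a cusp form.
-/
import Mathlib

set_option autoImplicit false

namespace Fermat.Agent.S23.Division

open Filter Topology Function UpperHalfPlane
open scoped MatrixGroups ModularForm Manifold

/-- Riemann extension of a locally bounded quotient `p / d` of holomorphic functions, where `d`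
has isolated zeros: there is a holomorphic `g` with `g * d = p`. -/
theorem exists_differentiableOn_mul_eq {U : Set ℂ} (hU : IsOpen U) {p d : ℂ → ℂ} {b : ℂ → ℝ}
    (hp : DifferentiableOn ℂ p U) (hd : DifferentiableOn ℂ d U) (hb : ContinuousOn b U)
    (hiso : ∀ z ∈ U, ∀ᶠ w in 𝓝[≠] z, d w ≠ 0)
    (hbound : ∀ z ∈ U, d z ≠ 0 → ‖p z‖ ≤ b z * ‖d z‖) :
    ∃ g : ℂ → ℂ, DifferentiableOn ℂ g U ∧ ∀ z ∈ U, g z * d z = p z := by
  set f : ℂ → ℂ := fun z => p z / d z with hf
  set g : ℂ → ℂ := fun z => limUnder (𝓝[≠] z) f with hg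
  -- (i) at points where `d ≠ 0`, `g = f`
  have hgf : ∀ w ∈ U, d w ≠ 0 → g w = f w := by
    intro w hw hdw
    have hcont : ContinuousAt f w :=
      ((hp.differentiableAt (hU.mem_nhds hw)).div (hd.differentiableAt (hU.mem_nhds hw))
        hdw).continuousAt
    exact (hcont.tendsto.mono_left nhdsWithin_le_nhds).limUnder_eq
  -- (ii) local analysis around an arbitrary point of `U`
  have key : ∀ z ∈ U, DifferentiableAt ℂ g z ∧ g z * d z = p z := by
    intro z hz
    have h1 : ∀ᶠ w in 𝓝 z, w ≠ z → d w ≠ 0 := eventually_nhdsWithin_iff.mp (hiso z hz)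
    have h2 : ∀ᶠ w in 𝓝 z, b w < b z + 1 :=
      (hb.continuousAt (hU.mem_nhds hz)).eventually (gt_mem_nhds (lt_add_one (b z)))
    have h3 : ∀ᶠ w in 𝓝 z, w ∈ U := hU.mem_nhds hz
    obtain ⟨s, hsV, hsopen, hzs⟩ := mem_nhds_iff.mp (h1.and (h2.and h3))
    have hsU : s ⊆ U := fun w hw => (hsV hw).2.2
    have hsd : ∀ w ∈ s, w ≠ z → d w ≠ 0 := fun w hw => (hsV hw).1
    have hsb : ∀ w ∈ s, b w < b z + 1 := fun w hw => (hsV hw).2.1
    have hdiff : DifferentiableOn ℂ f (s \ {z}) :=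
      (hp.mono (fun w hw => hsU hw.1)).div (hd.mono (fun w hw => hsU hw.1))
        (fun w hw => hsd w hw.1 hw.2)
    have hbdd : BddAbove (norm ∘ f '' (s \ {z})) := by
      refine ⟨b z + 1, ?_⟩
      rintro _ ⟨w, hw, rfl⟩
      have hdw : d w ≠ 0 := hsd w hw.1 hw.2
      have := hbound w (hsU hw.1) hdw
      simp only [comp_apply, hf, norm_div]
      rw [div_le_iff₀ (norm_pos_iff.mpr hdw)]
      exact this.trans (mul_le_mul_of_nonneg_right (hsb w hw.1).le (norm_nonneg _))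
    have hupd := Complex.differentiableOn_update_limUnder_of_bddAbove (hsopen.mem_nhds hzs)
      hdiff hbdd
    have heqOn : Set.EqOn g (update f z (limUnder (𝓝[≠] z) f)) s := by
      intro w hw
      by_cases hwz : w = z
      · subst hwz
        simp [hg]
      · rw [update_of_ne hwz]
        exact hgf w (hsU hw) (hsd w hw hwz)
    have hgdiff : DifferentiableAt ℂ g z :=
      (hupd.congr heqOn).differentiableAt (hsopen.mem_nhds hzs)
    refine ⟨hgdiff, ?_⟩
    have hev : ∀ᶠ w in 𝓝[≠] z, g w * d w = p w := by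
      have : ∀ᶠ w in 𝓝[≠] z, w ∈ s := nhdsWithin_le_nhds (hsopen.mem_nhds hzs)
      filter_upwards [this, self_mem_nhdsWithin] with w hw hwz
      have hdw : d w ≠ 0 := hsd w hw hwz
      rw [hgf w (hsU hw) hdw, hf]
      exact div_mul_cancel₀ _ hdw
    have ht1 : Tendsto (fun w => g w * d w) (𝓝[≠] z) (𝓝 (g z * d z)) :=
      ((hgdiff.continuousAt.mul
        (hd.differentiableAt (hU.mem_nhds hz)).continuousAt).tendsto).mono_left nhdsWithin_le_nhds
    have ht2 : Tendsto p (𝓝[≠] z) (𝓝 (p z)) :=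
      ((hp.differentiableAt (hU.mem_nhds hz)).continuousAt.tendsto).mono_left nhdsWithin_le_nhds
    exact tendsto_nhds_unique (ht1.congr' hev) ht2
  exact ⟨g, fun z hz => (key z hz).1.differentiableWithinAt, fun z hz => (key z hz).2⟩

/-- Basic estimate for a root `x` of a monic polynomial `X ^ n + ∑ a i X ^ (n - 1 - i)`. -/
theorem norm_pow_le_aux {n : ℕ} (a : Fin n → ℂ) (x : ℂ)
    (h : x ^ n + ∑ i : Fin n, a i * x ^ (n - 1 - (i : ℕ)) = 0) (r : ℝ) (hr1 : 1 ≤ r)
    (hxr : ‖x‖ ≤ r) : ‖x‖ ^ n ≤ (∑ i, ‖a i‖) * r ^ (n - 1) := by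
  have h1 : x ^ n = -∑ i : Fin n, a i * x ^ (n - 1 - (i : ℕ)) := eq_neg_of_add_eq_zero_left h
  calc ‖x‖ ^ n = ‖x ^ n‖ := (norm_pow x n).symm
    _ = ‖∑ i : Fin n, a i * x ^ (n - 1 - (i : ℕ))‖ := by rw [h1, norm_neg]
    _ ≤ ∑ i : Fin n, ‖a i * x ^ (n - 1 - (i : ℕ))‖ := norm_sum_le _ _
    _ ≤ ∑ i : Fin n, ‖a i‖ * r ^ (n - 1) := by
        refine Finset.sum_le_sum fun i _ => ?_
        rw [norm_mul, norm_pow]
        refine mul_le_mul_of_nonneg_left ?_ (norm_nonneg _)
        calc ‖x‖ ^ (n - 1 - (i : ℕ)) ≤ r ^ (n - 1 - (i : ℕ)) :=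
              pow_le_pow_left₀ (norm_nonneg _) hxr _
          _ ≤ r ^ (n - 1) := pow_le_pow_right₀ hr1 (Nat.sub_le _ _)
    _ = (∑ i, ‖a i‖) * r ^ (n - 1) := (Finset.sum_mul _ _ _).symm

/-- A root of a monic polynomial is bounded by `1 +` the sum of the norms of the coefficients. -/
theorem norm_le_of_monic_eq {n : ℕ} (a : Fin n → ℂ) (x : ℂ)
    (h : x ^ n + ∑ i : Fin n, a i * x ^ (n - 1 - (i : ℕ)) = 0) :
    ‖x‖ ≤ 1 + ∑ i, ‖a i‖ := by
  have hS : 0 ≤ ∑ i, ‖a i‖ := Finset.sum_nonneg fun i _ => norm_nonneg _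
  rcases le_or_gt ‖x‖ 1 with hx | hx
  · linarith
  · have hn : n ≠ 0 := by
      rintro rfl
      simp at h
    have h2 := norm_pow_le_aux a x h ‖x‖ hx.le le_rfl
    have h3 : ‖x‖ ^ n = ‖x‖ * ‖x‖ ^ (n - 1) := by
      rw [← pow_succ', Nat.sub_add_cancel (Nat.one_le_iff_ne_zero.mpr hn)]
    rw [h3] at h2
    have h4 : 0 < ‖x‖ ^ (n - 1) := pow_pos (by linarith) _
    have := le_of_mul_le_mul_right h2 h4
    linarith

/-- A root of a monic polynomial with small coefficients is small. -/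
theorem norm_pow_le_of_monic_eq {n : ℕ} (a : Fin n → ℂ) (x : ℂ)
    (h : x ^ n + ∑ i : Fin n, a i * x ^ (n - 1 - (i : ℕ)) = 0) :
    ‖x‖ ^ n ≤ (∑ i, ‖a i‖) * (1 + ∑ i, ‖a i‖) ^ (n - 1) := by
  have hS : 0 ≤ ∑ i, ‖a i‖ := Finset.sum_nonneg fun i _ => norm_nonneg _
  exact norm_pow_le_aux a x h _ (by linarith) (norm_le_of_monic_eq a x h)

/-- Homogeneity of the monic equation. -/
theorem homogeneous_identity {n : ℕ} (a : Fin n → ℂ) (x d : ℂ) :
    (x * d) ^ n + ∑ i : Fin n, a i * (x * d) ^ (n - 1 - (i : ℕ)) * d ^ ((i : ℕ) + 1)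
      = d ^ n * (x ^ n + ∑ i : Fin n, a i * x ^ (n - 1 - (i : ℕ))) := by
  rw [mul_add, Finset.mul_sum, mul_pow, mul_comm (x ^ n)]
  congr 1
  refine Finset.sum_congr rfl fun i _ => ?_
  have hi : n - 1 - (i : ℕ) + ((i : ℕ) + 1) = n := by have := i.2; omega
  calc a i * (x * d) ^ (n - 1 - (i : ℕ)) * d ^ ((i : ℕ) + 1)
      = a i * x ^ (n - 1 - (i : ℕ)) * (d ^ (n - 1 - (i : ℕ)) * d ^ ((i : ℕ) + 1)) := by
        rw [mul_pow]; ring
    _ = d ^ n * (a i * x ^ (n - 1 - (i : ℕ))) := by rw [← pow_add, hi]; ring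

/-- A continuous function on `ℍ` which vanishes off the zero set of a nonzero holomorphic
function vanishes identically. -/
theorem eq_zero_of_forall_ne_zero {D f : ℍ → ℂ} (hD : MDiff D) (hD0 : D ≠ 0) (hf : Continuous f)
    (h : ∀ τ, D τ ≠ 0 → f τ = 0) (τ : ℍ) : f τ = 0 := by
  have hev : ∀ᶠ z in 𝓝[≠] τ, D z ≠ 0 := by
    by_contra hcon
    have hfreq : ∃ᶠ z in 𝓝[≠] τ, D z = 0 := hcon
    exact hD0 (UpperHalfPlane.eq_zero_of_frequently hD hfreq)
  have ht1 : Tendsto f (𝓝[≠] τ) (𝓝 (f τ)) := hf.continuousAt.tendsto.mono_left nhdsWithin_le_nhds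
  have ht2 : Tendsto f (𝓝[≠] τ) (𝓝 0) :=
    tendsto_const_nhds.congr' (by filter_upwards [hev] with z hz using (h z hz).symm)
  exact tendsto_nhds_unique ht1 ht2

end Fermat.Agent.S23.Division

namespace Fermat.Agent.S23

open UpperHalfPlane
open scoped MatrixGroups ModularForm Manifold

/-- Let `Γ` be a finite index subgroup of `SL(2, ℤ)`, and let `P`, `D` be holomorphic functions on
`ℍ`, invariant under the weight `k + w` resp. weight `w` slash action of `Γ`, with `D ≠ 0`.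
Suppose `c i` (`i < n`) are holomorphic, invariant under the weight `k * (i + 1)` action of all
of `SL(2, ℤ)` and zero at `i∞`, and that
`P ^ n + ∑ i, c i * P ^ (n - 1 - i) * D ^ (i + 1) = 0` (so that `F = P / D` is a root of the monic
polynomial `X ^ n + ∑ i, c i * X ^ (n - 1 - i)`).  Then `P / D` is a cusp form of weight `k`:
there is a cusp form `F` on `Γ` with `F * D = P`. -/
theorem exists_cuspForm_of_monic_eq (Γ : Subgroup SL(2, ℤ)) [Γ.FiniteIndex] (k w : ℤ)
    (P D : ℍ → ℂ) (hP : MDiff P) (hD : MDiff D) (hD0 : D ≠ 0)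
    (hPinv : ∀ γ ∈ Γ, P ∣[k + w] γ = P) (hDinv : ∀ γ ∈ Γ, D ∣[w] γ = D)
    (n : ℕ) (c : Fin n → ℍ → ℂ) (hc : ∀ i, MDiff (c i))
    (hcinv : ∀ (i : Fin n) (γ : SL(2, ℤ)), (c i) ∣[k * ((i : ℤ) + 1)] γ = c i)
    (hczero : ∀ i, IsZeroAtImInfty (c i))
    (heq : ∀ τ : ℍ, P τ ^ n + ∑ i : Fin n, c i τ * P τ ^ (n - 1 - (i : ℕ)) * D τ ^ ((i : ℕ) + 1) = 0) :
    ∃ F : CuspForm (Subgroup.map (Matrix.SpecialLinearGroup.mapGL ℝ) Γ) k,
      ∀ τ : ℍ, F τ * D τ = P τ := by
  -- Step 1: `n ≠ 0`.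
  have hn : n ≠ 0 := by
    rintro rfl
    simpa using heq UpperHalfPlane.I
  -- Step 2: the pointwise bound for `P / D`.
  have hbound : ∀ τ : ℍ, D τ ≠ 0 → ‖P τ‖ ≤ (1 + ∑ i, ‖c i τ‖) * ‖D τ‖ := by
    intro τ hDτ
    have hx : P τ = P τ / D τ * D τ := (div_mul_cancel₀ _ hDτ).symm
    have h1 := heq τ
    rw [hx, Division.homogeneous_identity (fun i => c i τ) (P τ / D τ) (D τ)] at h1
    have h2 := (mul_eq_zero.mp h1).resolve_left (pow_ne_zero n hDτ)
    have h3 := Division.norm_le_of_monic_eq (fun i => c i τ) (P τ / D τ) h2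
    rw [norm_div, div_le_iff₀ (norm_pos_iff.mpr hDτ)] at h3
    exact h3
  -- Step 3: isolated zeros of `D` and Riemann extension of `P / D`.
  have hUopen : IsOpen {z : ℂ | 0 < z.im} := isOpen_upperHalfPlaneSet
  have hPd : DifferentiableOn ℂ (P ∘ ofComplex) {z : ℂ | 0 < z.im} := mdifferentiable_iff.mp hP
  have hDd : DifferentiableOn ℂ (D ∘ ofComplex) {z : ℂ | 0 < z.im} := mdifferentiable_iff.mp hD
  have hcd : ∀ i, DifferentiableOn ℂ (c i ∘ ofComplex) {z : ℂ | 0 < z.im} :=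
    fun i => mdifferentiable_iff.mp (hc i)
  have hiso : ∀ z ∈ {z : ℂ | 0 < z.im}, ∀ᶠ w in nhdsWithin z {z}ᶜ, (D ∘ ofComplex) w ≠ 0 := by
    intro z hz
    have han : AnalyticOnNhd ℂ (D ∘ ofComplex) {z : ℂ | 0 < z.im} := hDd.analyticOnNhd hUopen
    rcases (han z hz).eventually_eq_zero_or_eventually_ne_zero with h | h
    · exfalso
      apply hD0
      have hpre : IsPreconnected {z : ℂ | 0 < z.im} :=
        (Complex.isConnected_of_upperHalfPlane subset_rfl (by grind)).isPreconnected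
      have h0 := han.eqOn_zero_of_preconnected_of_eventuallyEq_zero hpre hz h
      funext τ
      have := h0 τ.im_pos
      simpa [ofComplex_apply] using this
    · exact h
  have hbcont : ContinuousOn (fun z : ℂ => 1 + ∑ i, ‖(c i ∘ ofComplex) z‖) {z : ℂ | 0 < z.im} :=
    continuousOn_const.add (continuousOn_finsetSum _ fun i _ => (hcd i).continuousOn.norm)
  obtain ⟨g, hgdiff, hgeq⟩ := Division.exists_differentiableOn_mul_eq hUopen hPd hDd hbcont hiso
    (fun z hz hdz => hbound (ofComplex z) hdz)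
  set F : ℍ → ℂ := fun τ => g τ with hFdef
  have hF : MDiff F := by
    rw [mdifferentiable_iff]
    refine hgdiff.congr fun z hz => ?_
    simp [hFdef, ofComplex_apply_of_im_pos hz]
  have hFD : ∀ τ : ℍ, F τ * D τ = P τ := by
    intro τ
    have := hgeq τ τ.im_pos
    simpa [ofComplex_apply] using this
  have hFcont : Continuous F := hF.continuous
  have hccont : ∀ i, Continuous (c i) := fun i => (hc i).continuous
  -- Step 4: the monic equation for `F` on all of `ℍ`.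
  have hmonic : ∀ τ : ℍ, F τ ^ n + ∑ i : Fin n, c i τ * F τ ^ (n - 1 - (i : ℕ)) = 0 := by
    refine Division.eq_zero_of_forall_ne_zero hD hD0 (by fun_prop) ?_
    intro τ hDτ
    have h1 := heq τ
    rw [← hFD τ, Division.homogeneous_identity (fun i => c i τ) (F τ) (D τ)] at h1
    exact (mul_eq_zero.mp h1).resolve_left (pow_ne_zero n hDτ)
  -- Step 5: invariance of `F` under `Γ`.
  have hFDfun : F * D = P := funext hFD
  have hFinv : ∀ γ ∈ Γ, F ∣[k] γ = F := by
    intro γ hγ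
    have h1 : (F ∣[k] γ) * D = F * D := by
      have h2 := ModularForm.mul_slash_SL2 k w γ F D
      rw [hFDfun, hPinv γ hγ, hDinv γ hγ] at h2
      rw [hFDfun, h2]
    have hslash : MDiff (F ∣[k] γ) := hF.slash k (γ : GL (Fin 2) ℝ)
    have h3 : (F ∣[k] γ - F) * D = 0 := by rw [sub_mul, h1, sub_self]
    rcases (UpperHalfPlane.mul_eq_zero_iff (hslash.sub hF) hD).mp h3 with h | h
    · exact sub_eq_zero.mp h
    · exact absurd h hD0
  -- Step 6: every `SL(2, ℤ)`-translate of `F` satisfies the same monic equation.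
  have hmonicγ : ∀ (γ : SL(2, ℤ)) (τ : ℍ),
      (F ∣[k] γ) τ ^ n + ∑ i : Fin n, c i τ * (F ∣[k] γ) τ ^ (n - 1 - (i : ℕ)) = 0 := by
    intro γ τ
    have hj : denom γ τ ≠ 0 := denom_ne_zero γ τ
    set e : ℂ := denom γ τ ^ k with he
    have he0 : e ≠ 0 := zpow_ne_zero k hj
    have hG : F (γ • τ) = (F ∣[k] γ) τ * e := by
      rw [ModularForm.SL_slash_apply, he, mul_assoc, zpow_neg, inv_mul_cancel₀ he0, mul_one]
    have hci : ∀ i : Fin n, c i (γ • τ) = c i τ * e ^ ((i : ℕ) + 1) := by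
      intro i
      have h1 := congrFun (hcinv i γ) τ
      rw [ModularForm.SL_slash_apply] at h1
      have h2 : e ^ ((i : ℕ) + 1) = denom γ τ ^ (k * ((i : ℤ) + 1)) := by
        rw [he, ← zpow_natCast, ← zpow_mul]
        push_cast
        rfl
      rw [h2, ← h1, mul_assoc, zpow_neg, inv_mul_cancel₀ (zpow_ne_zero _ hj), mul_one]
    have h1 := hmonic (γ • τ)
    rw [hG] at h1
    simp only [hci] at h1
    have h2 : ((F ∣[k] γ) τ * e) ^ n + ∑ i : Fin n,
        c i τ * ((F ∣[k] γ) τ * e) ^ (n - 1 - (i : ℕ)) * e ^ ((i : ℕ) + 1) = 0 := by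
      rw [← h1]
      congr 1
      refine Finset.sum_congr rfl fun i _ => ?_
      ring
    rw [Division.homogeneous_identity (fun i => c i τ) ((F ∣[k] γ) τ) e] at h2
    exact (mul_eq_zero.mp h2).resolve_left (pow_ne_zero n he0)
  -- Step 7: every `SL(2, ℤ)`-translate of `F` vanishes at `i∞`.
  have hS : Filter.Tendsto (fun τ : ℍ => ∑ i : Fin n, ‖c i τ‖) atImInfty (nhds 0) := by
    have h1 : ∀ i ∈ (Finset.univ : Finset (Fin n)),
        Filter.Tendsto (fun τ : ℍ => ‖c i τ‖) atImInfty (nhds 0) := by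
      intro i _
      have h2 : Filter.Tendsto (c i) atImInfty (nhds 0) := hczero i
      simpa using h2.norm
    simpa using tendsto_finsetSum _ h1
  have hSb : Filter.Tendsto
      (fun τ : ℍ => (∑ i : Fin n, ‖c i τ‖) * (1 + ∑ i : Fin n, ‖c i τ‖) ^ (n - 1))
      atImInfty (nhds 0) := by
    simpa using hS.mul ((tendsto_const_nhds.add hS).pow (n - 1))
  have hzero : ∀ γ : SL(2, ℤ), IsZeroAtImInfty (F ∣[k] γ) := by
    intro γ
    change Filter.Tendsto (F ∣[k] γ) atImInfty (nhds 0)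
    rw [Metric.tendsto_nhds]
    intro ε hε
    filter_upwards [hSb.eventually (gt_mem_nhds (pow_pos hε n))] with τ hτ
    rw [dist_zero_right]
    have h1 := Division.norm_pow_le_of_monic_eq (fun i => c i τ) ((F ∣[k] γ) τ) (hmonicγ γ τ)
    exact lt_of_pow_lt_pow_left₀ n hε.le (lt_of_le_of_lt h1 hτ)
  -- Step 8: assemble the cusp form.
  refine ⟨{ toFun := F
            slash_action_eq' := ?_
            holo' := hF
            zero_at_cusps' := ?_ }, hFD⟩
  · rintro _ ⟨γ, hγ, rfl⟩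
    exact hFinv γ hγ
  · intro c hc
    rw [Subgroup.IsArithmetic.isCusp_iff_isCusp_SL2Z] at hc
    rw [OnePoint.isZeroAt_iff_forall_SL2Z hc]
    intro γ _
    exact hzero γ

end Fermat.Agent.S23
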