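/-
Glue for S23: the conjugation theorem. The space of cusp forms on `Γ₀(N)` is stable under
conjugating q-expansion coefficients by a ring endomorphism of `ℂ`.
-/
import Fermat.Agent.S23.Conj
import Fermat.Agent.S23.Division

set_option autoImplicit false

namespace Fermat.Agent.S23

open UpperHalfPlane
open scoped MatrixGroups ModularForm Manifold Real

/-- Conjugates of level one forms vanishing at `i∞` vanish at `i∞`. -/
lemma IsConj.isZeroAtImInfty {σ : ℂ →+* ℂ} {w : ℤ} {F F' : ℍ → ℂ} (h : IsConj σ F F')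
    (hF' : IsMF 𝒮ℒ w F') (hz : IsZeroAtImInfty F) : IsZeroAtImInfty F' := by
  obtain ⟨G, rfl⟩ := hF'
  have h0 : (qExpansion 1 F).coeff 0 = 0 := by
    rw [UpperHalfPlane.qExpansion_coeff_zero one_pos (h.1.analyticAt one_pos) h.1.periodic]
    exact hz.valueAtInfty_eq_zero
  have h0' : (qExpansion 1 G).coeff 0 = 0 := by
    rw [h.2.2, PowerSeries.coeff_map, h0, map_zero]
  exact CuspFormClass.zero_at_infty (ModularForm.toCuspForm G h0')

/-- Homogenising the characteristic equation. -/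
lemma monic_eq_aux (d : ℕ) (x D : ℂ) (c : ℕ → ℂ)
    (h : ∑ i ∈ Finset.range d, c (i + 1) * x ^ (d - (i + 1)) + 1 * x ^ (d - 0) = 0) :
    (x * D) ^ d + ∑ i : Fin d, c ((i : ℕ) + 1) * (x * D) ^ (d - 1 - (i : ℕ)) * D ^ ((i : ℕ) + 1)
      = 0 := by
  have key : ∀ i : Fin d, c ((i : ℕ) + 1) * (x * D) ^ (d - 1 - (i : ℕ)) * D ^ ((i : ℕ) + 1) =
      D ^ d * (c ((i : ℕ) + 1) * x ^ (d - ((i : ℕ) + 1))) := by
    intro i
    have hi := i.2
    have e1 : d - 1 - (i : ℕ) = d - ((i : ℕ) + 1) := by omega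
    have e2 : D ^ d = D ^ (d - ((i : ℕ) + 1)) * D ^ ((i : ℕ) + 1) := by
      rw [← pow_add]
      congr 1
      omega
    rw [e1, mul_pow, e2]
    ring
  rw [Finset.sum_congr rfl (fun i _ => key i), ← Finset.mul_sum, mul_pow, mul_comm (x ^ d) (D ^ d),
    ← mul_add, Fin.sum_univ_eq_sum_range (fun i => c (i + 1) * x ^ (d - (i + 1))) d]
  have h' : x ^ d + ∑ i ∈ Finset.range d, c (i + 1) * x ^ (d - (i + 1)) = 0 := by
    simpa [add_comm] using h
  rw [h', mul_zero]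

/-- The conjugation theorem. -/
theorem conj_cuspForm (N : ℕ) [NeZero N] (k : ℤ) (f : CuspForm (Gam N) k) (σ : ℂ →+* ℂ) :
    ∃ g : CuspForm (Gam N) k, qExpansion 1 g = (qExpansion 1 f).map σ := by
  classical
  obtain ⟨hN, hcoe⟩ := DeltaN_isMF N
  obtain ⟨fM, hfM⟩ := IsMF.coe_cuspForm f
  have hD0 := diffFun_ne_zero N hN hcoe
  have hhconj : IsConj σ (⇑hN : ℍ → ℂ) (⇑hN : ℍ → ℂ) := by
    rw [hcoe]
    exact IsConj.DeltaN σ N
  -- the numerator
  obtain ⟨g, hg, hfD⟩ := lagrange fM hN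
  choose g' hg' hgconj using fun i => IsConj.of_levelOne σ (hg i)
  have hPeq : (⇑f : ℍ → ℂ) * diffFun hN =
      ∑ i ∈ Finset.range (idx (Gam N)), g i * (⇑hN : ℍ → ℂ) ^ i := by
    ext τ
    rw [← hfM]
    simp [hfD τ, Finset.sum_apply]
  obtain ⟨P', hP'⟩ : ∃ P' : ℍ → ℂ,
      P' = ∑ i ∈ Finset.range (idx (Gam N)), g' i * (⇑hN : ℍ → ℂ) ^ i := ⟨_, rfl⟩
  have hPconj : IsConj σ ((⇑f : ℍ → ℂ) * diffFun hN) P' := by
    rw [hPeq, hP']
    exact IsConj.sum _ fun i _ => (hgconj i).mul (hhconj.pow i)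
  have hPmf : IsMF (Gam N) (k + 12 * ((idx (Gam N) : ℤ) - 1)) P' := by
    rw [hP']
    refine IsMF.sum _ fun i _ => ?_
    refine ((hg' i).of_levelOne.mul ((IsMF.coe hN).pow i)).congr_weight ?_
    ring
  -- the denominator
  choose C' hC' hCconj using fun i => IsConj.of_levelOne σ (charCoeff_isMF hN i)
  obtain ⟨D', hD'⟩ : ∃ D' : ℍ → ℂ, D' = ∑ i ∈ Finset.range (idx (Gam N)),
      ((idx (Gam N) - i : ℕ) : ℂ) • (C' i * (⇑hN : ℍ → ℂ) ^ (idx (Gam N) - i - 1)) := ⟨_, rfl⟩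
  have hDconj : IsConj σ (diffFun hN) D' := by
    rw [diffFun_eq, hD']
    exact IsConj.sum _ fun i _ => ((hCconj i).mul (hhconj.pow _)).natCast_smul _
  have hDmf : IsMF (Gam N) (12 * ((idx (Gam N) : ℤ) - 1)) D' := by
    rw [hD']
    refine IsMF.sum _ fun i hi => ?_
    have hi' : i < idx (Gam N) := Finset.mem_range.mp hi
    refine IsMF.smul _ ?_
    refine ((hC' i).of_levelOne.mul
      ((IsMF.coe hN).pow (idx (Gam N) - i - 1))).congr_weight ?_
    have : ((idx (Gam N) - i - 1 : ℕ) : ℤ) = (idx (Gam N) : ℤ) - i - 1 := by omega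
    rw [this]
    ring
  have hD'0 : D' ≠ 0 := fun h => hD0 (hDconj.eq_zero' h)
  -- the coefficients of the monic equation
  choose c' hc' hcconj using fun i : Fin (idx (Gam N)) =>
    IsConj.of_levelOne σ (charCoeff_isMF f ((i : ℕ) + 1))
  have hc'zero : ∀ i, IsZeroAtImInfty (c' i) := fun i =>
    (hcconj i).isZeroAtImInfty (hc' i) (charCoeff_isZeroAtImInfty f (Nat.succ_pos _))
  have hE : ((⇑f : ℍ → ℂ) * diffFun hN) ^ (idx (Gam N)) +
      ∑ i : Fin (idx (Gam N)), charCoeff f ((i : ℕ) + 1) *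
        ((⇑f : ℍ → ℂ) * diffFun hN) ^ (idx (Gam N) - 1 - (i : ℕ)) *
          (diffFun hN) ^ ((i : ℕ) + 1) = 0 := by
    ext τ
    have h := charCoeff_root f τ
    rw [Finset.sum_range_succ', charCoeff_zero] at h
    have := monic_eq_aux (idx (Gam N)) (f τ) (diffFun hN τ) (fun i => charCoeff f i τ) h
    simpa [Finset.sum_apply] using this
  have hEconj : IsConj σ (((⇑f : ℍ → ℂ) * diffFun hN) ^ (idx (Gam N)) +
      ∑ i : Fin (idx (Gam N)), charCoeff f ((i : ℕ) + 1) *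
        ((⇑f : ℍ → ℂ) * diffFun hN) ^ (idx (Gam N) - 1 - (i : ℕ)) *
          (diffFun hN) ^ ((i : ℕ) + 1))
      (P' ^ (idx (Gam N)) + ∑ i : Fin (idx (Gam N)), c' i *
        P' ^ (idx (Gam N) - 1 - (i : ℕ)) * D' ^ ((i : ℕ) + 1)) :=
    (hPconj.pow _).add
      (IsConj.sum _ fun i _ => ((hcconj i).mul (hPconj.pow _)).mul (hDconj.pow _))
  have hE' := hEconj.eq_zero hE
  obtain ⟨F, hF⟩ := exists_cuspForm_of_monic_eq (CongruenceSubgroup.Gamma0 N) k
    (12 * ((idx (Gam N) : ℤ) - 1)) P' D' hPmf.mdiff hDmf.mdiff hD'0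
    (fun γ hγ => hPmf.slash_eq (Subgroup.mem_map_of_mem _ hγ))
    (fun γ hγ => hDmf.slash_eq (Subgroup.mem_map_of_mem _ hγ))
    (idx (Gam N)) c' (fun i => (hc' i).mdiff)
    (fun i γ => ((hc' i).congr_weight (by push_cast; ring)).slash_eq ⟨γ, rfl⟩)
    hc'zero
    (fun τ => by
      have := congrFun hE' τ
      simpa [Finset.sum_apply] using this)
  refine ⟨F, ?_⟩
  have hFD : (⇑F : ℍ → ℂ) * D' = P' := by
    ext τ
    exact hF τ
  have hFnice : IsNice 1 (⇑F : ℍ → ℂ) := (IsMF.coe_cuspForm F).isNice_one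
  have hfnice : IsNice 1 (⇑f : ℍ → ℂ) := (IsMF.coe_cuspForm f).isNice_one
  have h1 : qExpansion 1 F * qExpansion 1 D' = (qExpansion 1 f).map σ * qExpansion 1 D' := by
    rw [← qExpansion_mul one_pos hFnice hDconj.2.1, hFD, hPconj.2.2,
      qExpansion_mul one_pos hfnice hDconj.1, map_mul, hDconj.2.2]
  have hD'q : qExpansion 1 D' ≠ 0 := fun h =>
    hD'0 ((qExpansion_eq_zero_iff one_pos hDconj.2.1).mp h)
  exact mul_right_cancel₀ hD'q h1

end Fermat.Agent.S23
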