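/-
Abstract algebra for S23: Galois descent from `ℂ` to `ℚ` and bounded denominators.
-/
import Mathlib

set_option autoImplicit false

namespace Fermat.Agent.S23.Descent

/-- Given a transcendence basis `v` of an algebraically closed field `K` over a field `F`, any ring
automorphism `φ` of `MvPolynomial ι F` extends to a ring automorphism of `K`. -/
theorem exists_ringEquiv_of_mvPolynomial_equiv {F K : Type*} [Field F] [Field K] [Algebra F K]
    [IsAlgClosed K] {ι : Type*} (v : ι → K) (hv : IsTranscendenceBasis F v)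
    (φ : MvPolynomial ι F ≃+* MvPolynomial ι F) :
    ∃ σ : K ≃+* K, ∀ p : MvPolynomial ι F,
      σ (MvPolynomial.aeval v p) = MvPolynomial.aeval v (φ p) := by
  have := IsAlgClosed.isAlgClosure_of_transcendence_basis v hv
  let e : Algebra.adjoin F (Set.range v) ≃+* Algebra.adjoin F (Set.range v) :=
    hv.1.aevalEquiv.symm.toRingEquiv.trans (φ.trans hv.1.aevalEquiv.toRingEquiv)
  refine ⟨IsAlgClosure.equivOfEquiv K K e, fun p => ?_⟩
  rw [← hv.1.algebraMap_aevalEquiv, IsAlgClosure.equivOfEquiv_algebraMap,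
    ← hv.1.algebraMap_aevalEquiv]
  simp [e]

/-- A complex number transcendental over `ℚ` is moved by some ring automorphism of `ℂ`. -/
theorem exists_ringEquiv_ne_of_transcendental (x : ℂ) (hx : Transcendental ℚ x) :
    ∃ σ : ℂ ≃+* ℂ, σ x ≠ x := by
  have h1 : AlgebraicIndepOn ℚ id ({x} : Set ℂ) := by
    rw [AlgebraicIndepOn]
    exact (algebraicIndependent_singleton_iff (⟨x, rfl⟩ : ({x} : Set ℂ))).2 hx
  obtain ⟨t, hxt, ht⟩ := exists_isTranscendenceBasis_superset h1
  let φ : MvPolynomial t ℚ ≃ₐ[ℚ] MvPolynomial t ℚ :=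
    AlgEquiv.ofAlgHom (MvPolynomial.aeval (fun i => MvPolynomial.X i + 1))
      (MvPolynomial.aeval (fun i => MvPolynomial.X i - 1))
      (by ext; simp) (by ext; simp)
  obtain ⟨σ, hσ⟩ := exists_ringEquiv_of_mvPolynomial_equiv _ ht φ.toRingEquiv
  refine ⟨σ, ?_⟩
  have := hσ (MvPolynomial.X ⟨x, hxt rfl⟩)
  simp [φ] at this
  rw [this]
  simp

/-- A complex number algebraic over `ℚ` but not rational is moved by some ring automorphism
of `ℂ`. -/
theorem exists_ringEquiv_ne_of_isAlgebraic (x : ℂ) (hx : IsAlgebraic ℚ x)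
    (hx' : ∀ r : ℚ, (r : ℂ) ≠ x) :
    ∃ σ : ℂ ≃+* ℂ, σ x ≠ x := by
  have hxK : x ∈ algebraicClosure ℚ ℂ := mem_algebraicClosure_iff.2 hx
  have h2 : ¬ (⟨x, hxK⟩ : algebraicClosure ℚ ℂ) ∈
      Set.range (algebraMap ℚ (algebraicClosure ℚ ℂ)) := by
    rintro ⟨r, hr⟩
    exact hx' r (by simpa using congrArg Subtype.val hr)
  have : IsAlgClosure ℚ (algebraicClosure ℚ ℂ) := algebraicClosure.isAlgClosure ℚ ℂ
  have : IsGalois ℚ (algebraicClosure ℚ ℂ) := IsAlgClosure.isGalois ℚ (algebraicClosure ℚ ℂ)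
  rw [InfiniteGalois.mem_range_algebraMap_iff_fixed] at h2
  push Not at h2
  obtain ⟨τ, hτ⟩ := h2
  obtain ⟨s, hs⟩ := exists_isTranscendenceBasis (algebraicClosure ℚ ℂ) ℂ
  obtain ⟨σ, hσ⟩ := exists_ringEquiv_of_mvPolynomial_equiv _ hs
    (MvPolynomial.mapEquiv s τ.toRingEquiv)
  refine ⟨σ, ?_⟩
  have := hσ (MvPolynomial.C ⟨x, hxK⟩)
  simp at this
  rw [this]
  intro h
  exact hτ (Subtype.ext h)

end Fermat.Agent.S23.Descent

namespace Fermat.Agent.S23

/-- The fixed field of all ring endomorphisms of `ℂ` is `ℚ`. -/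
theorem exists_rat_of_forall_ringHom_fixed (x : ℂ) (hx : ∀ σ : ℂ →+* ℂ, σ x = x) :
    ∃ r : ℚ, (r : ℂ) = x := by
  by_contra h
  push Not at h
  by_cases hx' : IsAlgebraic ℚ x
  · obtain ⟨σ, hσ⟩ := Descent.exists_ringEquiv_ne_of_isAlgebraic x hx' h
    exact hσ (hx σ.toRingHom)
  · obtain ⟨σ, hσ⟩ := Descent.exists_ringEquiv_ne_of_transcendental x hx'
    exact hσ (hx σ.toRingHom)

end Fermat.Agent.S23

namespace Fermat.Agent.S23.Descent

/-- Descent: a subspace of `ι → ℂ` stable under coordinatewise application of all ring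
endomorphisms of `ℂ` is spanned by its vectors with rational coordinates.  (Stated with an
explicit bound on the size of the support, for the induction.) -/
theorem mem_span_rat_of_stable {ι : Type*} [Fintype ι] (W : Submodule ℂ (ι → ℂ))
    (hW : ∀ σ : ℂ →+* ℂ, ∀ w ∈ W, (fun i => σ (w i)) ∈ W) :
    ∀ (n : ℕ) (w : ι → ℂ), w ∈ W →
      (Finset.univ.filter (fun i => w i ≠ 0)).card = n →
      w ∈ Submodule.span ℂ {u : ι → ℂ | u ∈ W ∧ ∀ i, ∃ r : ℚ, u i = r} := by
  classical
  intro n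
  induction n using Nat.strong_induction_on with
  | _ n ih =>
  intro w hw hn
  by_cases hw0 : w = 0
  · rw [hw0]; exact Submodule.zero_mem _
  let S : Set (ι → ℂ) := {u | u ∈ W ∧ u ≠ 0 ∧ ∀ i, w i = 0 → u i = 0}
  have hS : w ∈ S := ⟨hw, hw0, fun i hi => hi⟩
  let f : (ι → ℂ) → ℕ := fun u => (Finset.univ.filter (fun i => u i ≠ 0)).card
  have huS : Function.argminOn f S ⟨w, hS⟩ ∈ S := Function.argminOn_mem f S ⟨w, hS⟩
  have hmin : ∀ u' ∈ S, f (Function.argminOn f S ⟨w, hS⟩) ≤ f u' :=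
    fun u' hu' => Function.argminOn_le f S hu'
  generalize Function.argminOn f S ⟨w, hS⟩ = u at huS hmin
  obtain ⟨huW, hu0, husupp⟩ := huS
  obtain ⟨i₀, hi₀⟩ : ∃ i₀, u i₀ ≠ 0 := by
    by_contra hcon
    push Not at hcon
    exact hu0 (funext hcon)
  -- normalise `u` at the coordinate `i₀`
  set u₁ : ι → ℂ := (u i₀)⁻¹ • u with hu₁
  have hu₁W : u₁ ∈ W := W.smul_mem _ huW
  have hu₁i₀ : u₁ i₀ = 1 := by simp [hu₁, hi₀]
  have hu₁supp : ∀ i, u i = 0 → u₁ i = 0 := by
    intro i hi; simp [hu₁, hi]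
  have hfix : ∀ (σ : ℂ →+* ℂ) (i : ι), σ (u₁ i) = u₁ i := by
    intro σ
    by_contra hcon
    push Not at hcon
    obtain ⟨i₁, hi₁⟩ := hcon
    let d : ι → ℂ := (fun i => σ (u₁ i)) - u₁
    have hdW : d ∈ W := W.sub_mem (hW σ u₁ hu₁W) hu₁W
    have hd0 : d ≠ 0 := by
      intro h
      apply hi₁
      have := congrFun h i₁
      simpa [d, sub_eq_zero] using this
    have hdsupp : ∀ i, u i = 0 → d i = 0 := by
      intro i hi
      simp [d, hu₁supp i hi]
    have hdS : d ∈ S := ⟨hdW, hd0, fun i hi => hdsupp i (husupp i hi)⟩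
    have hdi₀ : d i₀ = 0 := by simp [d, hu₁i₀]
    have hlt : f d < f u := by
      apply Finset.card_lt_card
      rw [Finset.ssubset_iff_of_subset]
      · exact ⟨i₀, by simp [hi₀], by simp [hdi₀]⟩
      · intro i
        simp only [Finset.mem_filter, Finset.mem_univ, true_and]
        intro hi hui
        exact hi (hdsupp i hui)
    exact absurd (hmin d hdS) (not_le.mpr hlt)
  have hrat : ∀ i, ∃ r : ℚ, u₁ i = r := by
    intro i
    obtain ⟨r, hr⟩ := exists_rat_of_forall_ringHom_fixed (u₁ i) (fun σ => hfix σ i)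
    exact ⟨r, hr.symm⟩
  have hwi₀ : w i₀ ≠ 0 := fun h => hi₀ (husupp i₀ h)
  have hw'W : w - w i₀ • u₁ ∈ W := W.sub_mem hw (W.smul_mem _ hu₁W)
  have hlt : (Finset.univ.filter (fun i => (w - w i₀ • u₁) i ≠ 0)).card < n := by
    rw [← hn]
    apply Finset.card_lt_card
    rw [Finset.ssubset_iff_of_subset]
    · exact ⟨i₀, by simp [hwi₀], by simp [hu₁i₀]⟩
    · intro i
      simp only [Finset.mem_filter, Finset.mem_univ, true_and]
      intro hi hwi
      apply hi
      simp [hwi, hu₁supp i (husupp i hwi)]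
  have h1 := ih _ hlt _ hw'W rfl
  have h2 : w i₀ • u₁ ∈ Submodule.span ℂ {u : ι → ℂ | u ∈ W ∧ ∀ i, ∃ r : ℚ, u i = r} :=
    Submodule.smul_mem _ _ (Submodule.subset_span ⟨hu₁W, hrat⟩)
  have := Submodule.add_mem _ h1 h2
  simpa using this

/-- Step 1: the vectors with rational coefficients span. -/
theorem mem_span_rat_coeff {V : Type*} [AddCommGroup V] [Module ℂ V]
    (a : V →ₗ[ℂ] (ℕ → ℂ)) (B : ℕ)
    (hinj : ∀ v : V, (∀ n ≤ B, a v n = 0) → v = 0)
    (hconj : ∀ (v : V) (σ : ℂ →+* ℂ), ∃ w : V, ∀ n, a w n = σ (a v n)) (v : V) :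
    v ∈ Submodule.span ℂ {g : V | ∀ n, ∃ q : ℚ, a g n = q} := by
  classical
  let T : V →ₗ[ℂ] (Fin (B + 1) → ℂ) :=
    { toFun := fun v n => a v n
      map_add' := fun v w => by ext n; simp
      map_smul' := fun c v => by ext n; simp }
  have hT : ∀ v (n : Fin (B + 1)), T v n = a v n := fun v n => rfl
  have hTinj : Function.Injective T := by
    rw [← LinearMap.ker_eq_bot, LinearMap.ker_eq_bot']
    intro v hv
    apply hinj
    intro n hn
    have := congrFun hv ⟨n, Nat.lt_succ_of_le hn⟩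
    simpa [hT] using this
  have hstab : ∀ σ : ℂ →+* ℂ, ∀ w ∈ LinearMap.range T,
      (fun i => σ (w i)) ∈ LinearMap.range T := by
    rintro σ _ ⟨v, rfl⟩
    obtain ⟨w, hw⟩ := hconj v σ
    exact ⟨w, funext fun i => by simp [hT, hw]⟩
  have h1 := mem_span_rat_of_stable (LinearMap.range T) hstab _ (T v) ⟨v, rfl⟩ rfl
  have h2 : {u : Fin (B + 1) → ℂ | u ∈ LinearMap.range T ∧ ∀ i, ∃ r : ℚ, u i = r} ⊆
      T '' {g : V | ∀ n, ∃ q : ℚ, a g n = q} := by
    rintro _ ⟨⟨g, rfl⟩, hg⟩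
    refine ⟨g, ?_, rfl⟩
    intro n
    have hfix : ∀ σ : ℂ →+* ℂ, σ (a g n) = a g n := by
      intro σ
      obtain ⟨w, hw⟩ := hconj g σ
      have hwg : w = g := by
        apply hTinj
        funext i
        obtain ⟨r, hr⟩ := hg i
        rw [hT, hw, ← hT, hr]
        simp
      rw [← hw, hwg]
    obtain ⟨r, hr⟩ := exists_rat_of_forall_ringHom_fixed _ hfix
    exact ⟨r, hr.symm⟩
  have h3 := Submodule.span_mono h2 h1
  rw [Submodule.span_image] at h3
  obtain ⟨v', hv', hv'v⟩ := h3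
  rwa [← hTinj hv'v]

/-- Step 2 (bounded denominators): a vector with rational coefficients is a complex multiple of a
vector with integer coefficients. -/
theorem mem_span_int_of_rat {V : Type*} [AddCommGroup V] [Module ℂ V]
    (a : V →ₗ[ℂ] (ℕ → ℂ)) (r M : ℕ) (hM : 0 < M) {J : Type} [Fintype J] (s : J → PowerSeries ℤ)
    (g : V) (hg : ∀ n, ∃ q : ℚ, a g n = q) (c : J → ℂ)
    (hc : (PowerSeries.X ^ r * PowerSeries.mk (fun n => if M ∣ n then a g (n / M) else 0) :
        PowerSeries ℂ) = ∑ j, c j • (s j).map (Int.castRingHom ℂ)) :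
    g ∈ Submodule.span ℂ {v : V | ∀ n, ∃ m : ℤ, a v n = m} := by
  classical
  -- a `ℚ`-linear retraction of `ℂ` onto `ℚ`
  obtain ⟨π, hπ⟩ : ∃ π : ℂ →ₗ[ℚ] ℚ, ∀ q : ℚ, π (q : ℂ) = q := by
    obtain ⟨π, hπ⟩ := LinearMap.exists_leftInverse_of_injective (Algebra.linearMap ℚ ℂ)
      (LinearMap.ker_eq_bot.2 (algebraMap ℚ ℂ).injective)
    exact ⟨π, fun q => by simpa using LinearMap.congr_fun hπ q⟩
  -- the coefficient identity
  have hcoef : ∀ m, a g m = ∑ j, c j * ((PowerSeries.coeff (r + M * m) (s j) : ℤ) : ℂ) := by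
    intro m
    have := congrArg (PowerSeries.coeff (M * m + r)) hc
    rw [PowerSeries.coeff_X_pow_mul] at this
    rw [add_comm r]
    simpa [hM.ne', hM] using this
  -- rational version
  have hcoefQ : ∀ m (q : ℚ), a g m = q →
      q = ∑ j, ((PowerSeries.coeff (r + M * m) (s j) : ℤ) : ℚ) * π (c j) := by
    intro m q hq
    have h1 := congrArg π (hcoef m)
    rw [hq, hπ, map_sum] at h1
    rw [h1]
    refine Finset.sum_congr rfl fun j _ => ?_
    have : c j * ((PowerSeries.coeff (r + M * m) (s j) : ℤ) : ℂ) =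
        ((PowerSeries.coeff (r + M * m) (s j) : ℤ) : ℚ) • c j := by
      rw [Rat.smul_def]; push_cast; ring
    rw [this, map_smul, smul_eq_mul]
  -- common denominator
  set D : ℕ := ∏ j, (π (c j)).den with hD
  have hDpos : 0 < D := Finset.prod_pos fun j _ => (π (c j)).den_pos
  have hDint : ∀ j, ∃ z : ℤ, (D : ℚ) * π (c j) = z := by
    intro j
    obtain ⟨k, hk⟩ := Finset.dvd_prod_of_mem (fun j => (π (c j)).den) (Finset.mem_univ j)
    refine ⟨k * (π (c j)).num, ?_⟩
    rw [hD, hk]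
    push_cast
    have := Rat.mul_den_eq_num (π (c j))
    rw [← this]
    ring
  have hint : ∀ n, ∃ z : ℤ, a ((D : ℂ) • g) n = z := by
    intro n
    obtain ⟨q, hq⟩ := hg n
    choose z hz using hDint
    refine ⟨∑ j, PowerSeries.coeff (r + M * n) (s j) * z j, ?_⟩
    have h1 : (D : ℚ) * q = ((∑ j, PowerSeries.coeff (r + M * n) (s j) * z j : ℤ) : ℚ) := by
      rw [hcoefQ n q hq, Finset.mul_sum]
      push_cast
      refine Finset.sum_congr rfl fun j _ => ?_
      rw [← hz j]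
      ring
    have h2 := congrArg (fun t : ℚ => (t : ℂ)) h1
    simp only [map_smul, Pi.smul_apply, smul_eq_mul, hq]
    push_cast at h2 ⊢
    exact h2
  have hD0 : (D : ℂ) ≠ 0 := by exact_mod_cast hDpos.ne'
  have : g = (D : ℂ)⁻¹ • ((D : ℂ) • g) := by
    rw [smul_smul, inv_mul_cancel₀ hD0, one_smul]
  rw [this]
  exact Submodule.smul_mem _ _ (Submodule.subset_span hint)

end Fermat.Agent.S23.Descent

namespace Fermat.Agent.S23

/-- Abstract form of the integral structure theorem.  `a v n` is the `n`-th coefficient of `v`.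
* `hinj`: a vector is determined by its first `B + 1` coefficients (Sturm bound);
* `hconj`: the space is stable under conjugating coefficients by any ring endomorphism of `ℂ`;
* `hstruct`: after multiplying by `X ^ r`, the (expanded) coefficient series of every vector is
  a `ℂ`-linear combination of finitely many fixed power series with integer coefficients.
Then the vectors with integer coefficients span. -/
theorem integral_span_of_struct {V : Type*} [AddCommGroup V] [Module ℂ V]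
    (a : V →ₗ[ℂ] (ℕ → ℂ)) (B : ℕ)
    (hinj : ∀ v : V, (∀ n ≤ B, a v n = 0) → v = 0)
    (hconj : ∀ (v : V) (σ : ℂ →+* ℂ), ∃ w : V, ∀ n, a w n = σ (a v n))
    (r M : ℕ) (hM : 0 < M) {J : Type} [Fintype J] (s : J → PowerSeries ℤ)
    (hstruct : ∀ v : V, ∃ c : J → ℂ,
      (PowerSeries.X ^ r * PowerSeries.mk (fun n => if M ∣ n then a v (n / M) else 0) :
        PowerSeries ℂ) = ∑ j, c j • (s j).map (Int.castRingHom ℂ)) :
    Submodule.span ℂ {v : V | ∀ n, ∃ m : ℤ, a v n = m} = ⊤ := by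
  rw [eq_top_iff]
  intro v _
  have h1 := Descent.mem_span_rat_coeff a B hinj hconj v
  have h2 : {g : V | ∀ n, ∃ q : ℚ, a g n = q} ⊆
      (Submodule.span ℂ {v : V | ∀ n, ∃ m : ℤ, a v n = m} : Set V) := by
    intro g hg
    obtain ⟨c, hc⟩ := hstruct g
    exact Descent.mem_span_int_of_rat a r M hM s g hg c hc
  exact Submodule.span_le.2 h2 h1

end Fermat.Agent.S23
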