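/-
Glue for S23: the structure theorem. After multiplication by a fixed power of `X`, the `q_N`-expansion
of every modular form on `Γ₀(N)` is a complex combination of finitely many fixed integral power series.
-/
import Fermat.Agent.S23.Setup

set_option autoImplicit false

namespace Fermat.Agent.S23

open UpperHalfPlane EisensteinSeries ModularForm
open scoped MatrixGroups ModularForm Manifold Real

/-- The `q_N`-expansion of a level one form is a combination of expanded integral monomials in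
the expansions of `E₄` and `E₆`. -/
theorem qExpansion_levelOne (N : ℕ) [NeZero N] (w : ℤ) {F : ℍ → ℂ} (hF : IsMF 𝒮ℒ w F)
    (s4 s6 : PowerSeries ℤ) (hs4 : s4.map (Int.castRingHom ℂ) = qExpansion 1 E₄)
    (hs6 : s6.map (Int.castRingHom ℂ) = qExpansion 1 E₆) :
    ∃ (s : Finset (ℕ × ℕ)) (c : ℕ × ℕ → ℂ), (∀ p ∈ s, (4 * (p.1 : ℤ) + 6 * (p.2 : ℤ)) = w) ∧
      qExpansion (N : ℝ) F = ∑ p ∈ s, c p •
        (PowerSeries.expand N (NeZero.ne N) (s4 ^ p.1 * s6 ^ p.2)).map (Int.castRingHom ℂ) := by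
  obtain ⟨G, rfl⟩ := hF
  obtain ⟨s, c, hs, hG⟩ := levelOne_span w G
  refine ⟨s, c, hs, ?_⟩
  have h4 : IsNice 1 (⇑E₄ : ℍ → ℂ) := (IsMF.coe E₄).isNice_one_of_levelOne
  have h6 : IsNice 1 (⇑E₆ : ℍ → ℂ) := (IsMF.coe E₆).isNice_one_of_levelOne
  have hG1 : IsNice 1 (⇑G : ℍ → ℂ) := (IsMF.coe G).isNice_one_of_levelOne
  have hterm : ∀ p ∈ s, IsNice 1 (c p • ((⇑E₄ : ℍ → ℂ) ^ p.1 * (⇑E₆ : ℍ → ℂ) ^ p.2)) :=
    fun p _ => ((h4.pow p.1).mul (h6.pow p.2)).smul (c p)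
  have h1 : qExpansion 1 (⇑G : ℍ → ℂ) =
      ∑ p ∈ s, c p • (s4 ^ p.1 * s6 ^ p.2).map (Int.castRingHom ℂ) := by
    rw [hG, qExpansion_sum one_pos s hterm]
    refine Finset.sum_congr rfl fun p _ => ?_
    rw [qExpansion_smul one_pos _ ((h4.pow p.1).mul (h6.pow p.2)),
      qExpansion_mul one_pos (h4.pow p.1) (h6.pow p.2), qExpansion_pow one_pos h4,
      qExpansion_pow one_pos h6, map_mul, map_pow, map_pow, hs4, hs6]
  have h2 := qExpansion_nat_mul one_pos hG1 (NeZero.ne N)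
  rw [mul_one] at h2
  rw [h2, h1, map_sum]
  refine Finset.sum_congr rfl fun p _ => ?_
  rw [PowerSeries.expand_smul, PowerSeries.map_expand]

/-- The structure theorem: bounded denominators for the `q_N`-expansions of modular forms on
`Γ₀(N)`. -/
theorem struct_modularForm (N : ℕ) [NeZero N] (k : ℤ) :
    ∃ (r : ℕ) (J : Type) (_ : Fintype J) (s : J → PowerSeries ℤ),
      ∀ f : ModularForm (Gam N) k, ∃ c : J → ℂ,
        (PowerSeries.X ^ r * qExpansion (N : ℝ) f : PowerSeries ℂ) =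
          ∑ j, c j • (s j).map (Int.castRingHom ℂ) := by
  have hN0 : N ≠ 0 := NeZero.ne N
  have hNpos : (0 : ℝ) < N := by exact_mod_cast Nat.pos_of_ne_zero hN0
  obtain ⟨hN, hcoe⟩ := DeltaN_isMF N
  obtain ⟨r, L, hL, ω, e, hW⟩ := exists_inverse N hN hcoe
  obtain ⟨s4, hs4⟩ := exists_E4Z
  obtain ⟨s6, hs6⟩ := exists_E6Z
  obtain ⟨sΔ, hsΔ, -, -⟩ := exists_DeltaZ
  obtain ⟨K, hK⟩ : ∃ K : ℕ, K = (k + 12 * (idx (Gam N) : ℤ)).toNat := ⟨_, rfl⟩
  let T : Fin (idx (Gam N)) × Fin (K + 1) × Fin (K + 1) × L → PowerSeries ℤ := fun j =>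
    PowerSeries.expand N hN0 (s4 ^ (j.2.1 : ℕ) * s6 ^ (j.2.2.1 : ℕ)) *
      (PowerSeries.expand (N * N) (Nat.mul_ne_zero hN0 hN0) sΔ) ^ (j.1 : ℕ) * e j.2.2.2
  refine ⟨r, _, inferInstance, T, fun f => ?_⟩
  suffices key : (PowerSeries.X ^ r * qExpansion (N : ℝ) f : PowerSeries ℂ) ∈
      Submodule.span ℂ (Set.range fun j => (T j).map (Int.castRingHom ℂ)) by
    obtain ⟨c, hc⟩ := (Submodule.mem_span_range_iff_exists_fun ℂ).mp key
    exact ⟨c, hc.symm⟩
  obtain ⟨g, hg, hfD⟩ := lagrange f hN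
  have hfN : IsNice (N : ℝ) (⇑f : ℍ → ℂ) := by simpa using (IsMF.coe f).isNice_one.nat_mul N
  have hhN : IsNice (N : ℝ) (⇑hN : ℍ → ℂ) := by simpa using (IsMF.coe hN).isNice_one.nat_mul N
  have hDN : IsNice (N : ℝ) (diffFun hN) := by
    simpa using (diffFun_isMF N hN).isNice_one.nat_mul N
  have hgN : ∀ i, IsNice (N : ℝ) (g i) := fun i => by
    simpa using (hg i).isNice_one_of_levelOne.nat_mul N
  have e2 : (⇑f : ℍ → ℂ) * diffFun hN =
      ∑ i ∈ Finset.range (idx (Gam N)), g i * (⇑hN : ℍ → ℂ) ^ i := by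
    ext τ
    simp [hfD τ, Finset.sum_apply]
  have e1 : (PowerSeries.X ^ r * qExpansion (N : ℝ) f : PowerSeries ℂ) =
      ∑ i ∈ Finset.range (idx (Gam N)), qExpansion (N : ℝ) (g i * (⇑hN : ℍ → ℂ) ^ i) *
        ∑ l, ω l • (e l).map (Int.castRingHom ℂ) := by
    rw [← Finset.sum_mul, ← qExpansion_sum hNpos _ (fun i _ => (hgN i).mul (hhN.pow i)), ← e2,
      qExpansion_mul hNpos hfN hDN, mul_assoc, hW, mul_comm]
  rw [e1]
  refine Submodule.sum_mem _ fun i hi => ?_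
  have hi' : i < idx (Gam N) := Finset.mem_range.mp hi
  obtain ⟨sp, cp, hsp, hgi⟩ := qExpansion_levelOne N _ (hg i) s4 s6 hs4 hs6
  have hhNq : qExpansion (N : ℝ) (⇑hN : ℍ → ℂ) =
      (PowerSeries.expand (N * N) (Nat.mul_ne_zero hN0 hN0) sΔ).map (Int.castRingHom ℂ) := by
    rw [hcoe, qExpansion_N_DeltaN, PowerSeries.map_expand, hsΔ]
  rw [qExpansion_mul hNpos (hgN i) (hhN.pow i), qExpansion_pow hNpos hhN, hgi, hhNq,
    Finset.sum_mul, Finset.sum_mul]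
  refine Submodule.sum_mem _ fun p hp => ?_
  rw [Finset.mul_sum]
  refine Submodule.sum_mem _ fun l _ => ?_
  have hp' := hsp p hp
  have hp1 : p.1 < K + 1 := by omega
  have hp2 : p.2 < K + 1 := by omega
  have hT : cp p • (PowerSeries.expand N hN0 (s4 ^ p.1 * s6 ^ p.2)).map (Int.castRingHom ℂ) *
      (PowerSeries.expand (N * N) (Nat.mul_ne_zero hN0 hN0) sΔ).map (Int.castRingHom ℂ) ^ i *
        ω l • (e l).map (Int.castRingHom ℂ) =
      (cp p * ω l) • (T (⟨i, hi'⟩, ⟨p.1, hp1⟩, ⟨p.2, hp2⟩, l)).map (Int.castRingHom ℂ) := by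
    simp only [T, map_mul, map_pow, smul_mul_assoc, mul_smul_comm, smul_smul]
    rw [mul_comm (ω l) (cp p)]
  rw [hT]
  exact Submodule.smul_mem _ _ (Submodule.subset_span ⟨_, rfl⟩)

/-- The structure theorem for cusp forms, in the form needed for the descent. -/
theorem struct_cuspForm (N : ℕ) [NeZero N] (k : ℤ) :
    ∃ (r : ℕ) (J : Type) (_ : Fintype J) (s : J → PowerSeries ℤ),
      ∀ f : CuspForm (Gam N) k, ∃ c : J → ℂ,
        (PowerSeries.X ^ r * qExpansion (N : ℝ) f : PowerSeries ℂ) =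
          ∑ j, c j • (s j).map (Int.castRingHom ℂ) := by
  obtain ⟨r, J, hJ, s, h⟩ := struct_modularForm N k
  refine ⟨r, J, hJ, s, fun f => ?_⟩
  obtain ⟨G, hG⟩ := IsMF.coe_cuspForm f
  obtain ⟨c, hc⟩ := h G
  exact ⟨c, by rw [← hG]; exact hc⟩

end Fermat.Agent.S23
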