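/-
The integral structure theorem for cusp forms on `Γ₀(N)`, for all weights: the space of cusp forms
is spanned over `ℂ` by the forms with integral q-expansion coefficients.
-/
import Fermat.Agent.S23.Struct
import Fermat.Agent.S23.ConjB
import Fermat.Agent.S23.Descent
import Fermat.Prelude.Thm_ModularForm_sturm_bound_Gamma0

set_option autoImplicit false

namespace Fermat.Agent.S23

open UpperHalfPlane
open scoped MatrixGroups ModularForm Manifold Real

/-- The q-expansion coefficients (at the period one) as a linear map on cusp forms. -/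
noncomputable def coeffLin (N : ℕ) [NeZero N] (k : ℤ) : CuspForm (Gam N) k →ₗ[ℂ] (ℕ → ℂ) where
  toFun f n := (qExpansion 1 f).coeff n
  map_add' f g := by
    ext n
    have : qExpansion 1 ((⇑f : ℍ → ℂ) + ⇑g) = qExpansion 1 f + qExpansion 1 g :=
      qExpansion_add one_pos (IsMF.coe_cuspForm f).isNice_one (IsMF.coe_cuspForm g).isNice_one
    change (qExpansion 1 ((⇑f : ℍ → ℂ) + ⇑g)).coeff n =
      (qExpansion 1 f).coeff n + (qExpansion 1 g).coeff n
    rw [this, map_add]
  map_smul' c f := by
    ext n
    have : qExpansion 1 (c • (⇑f : ℍ → ℂ)) = c • qExpansion 1 f :=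
      qExpansion_smul one_pos c (IsMF.coe_cuspForm f).isNice_one
    change (qExpansion 1 (c • (⇑f : ℍ → ℂ))).coeff n = c * (qExpansion 1 f).coeff n
    rw [this, PowerSeries.coeff_smul, smul_eq_mul]

lemma coeffLin_apply (N : ℕ) [NeZero N] (k : ℤ) (f : CuspForm (Gam N) k) (n : ℕ) :
    coeffLin N k f n = (qExpansion 1 f).coeff n := rfl

/-- Cusp forms on `Γ₀(N)` with integral q-expansion span the space of cusp forms. -/
theorem span_integral_eq_top (N : ℕ) [NeZero N] (k : ℤ) :
    Submodule.span ℂ {f : CuspForm (Gam N) k | ∀ n : ℕ, ∃ m : ℤ,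
      (qExpansion 1 f).coeff n = (m : ℂ)} = ⊤ := by
  have hN0 : N ≠ 0 := NeZero.ne N
  obtain ⟨r, J, hJ, s, hs⟩ := struct_cuspForm N k
  refine integral_span_of_struct (coeffLin N k)
    ((k * (CongruenceSubgroup.Gamma0 N).index).toNat / 12) ?_ ?_ r N (Nat.pos_of_ne_zero hN0) s ?_
  · intro f hf
    obtain ⟨fM, hfM⟩ := IsMF.coe_cuspForm f
    have h0 : fM = 0 := by
      refine ModularForm.sturm_bound_Gamma0 N fM fun n hn => ?_
      rw [hfM]
      exact hf n hn
    apply DFunLike.coe_injective
    rw [← hfM, h0]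
    rfl
  · intro f σ
    obtain ⟨g, hg⟩ := conj_cuspForm N k f σ
    refine ⟨g, fun n => ?_⟩
    rw [coeffLin_apply, coeffLin_apply, hg, PowerSeries.coeff_map]
  · intro f
    obtain ⟨c, hc⟩ := hs f
    refine ⟨c, ?_⟩
    rw [← hc]
    congr 1
    have h2 := qExpansion_nat_mul one_pos (IsMF.coe_cuspForm f).isNice_one hN0
    rw [mul_one] at h2
    rw [h2]
    ext n
    rw [PowerSeries.coeff_mk, PowerSeries.coeff_expand]
    rfl

/-- The integral structure theorem in all weights. -/
theorem hasIntegralStructure (N : ℕ) [NeZero N] (k : ℤ) : CuspForm.HasIntegralStructure N k := by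
  unfold CuspForm.HasIntegralStructure CuspForm.intLattice
  rw [eq_top_iff, ← span_integral_eq_top N k]
  exact Submodule.span_mono Submodule.subset_span

end Fermat.Agent.S23
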